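import Mathlib

/-!
# Colength of `m • k[[q]]^ι` in `k[[q]]^ι` is the order of `det m`
-/

set_option autoImplicit false

namespace Fermat.Agent.S20_helper83

open scoped PowerSeries
open Module

variable {k : Type*} [Field k]

/-- truncation `k[[q]] → k^n`. -/
noncomputable def truncLin (n : ℕ) : k⟦X⟧ →ₗ[k] (Fin n → k) where
  toFun f i := PowerSeries.coeff (i : ℕ) f
  map_add' f g := by ext i; simp
  map_smul' c f := by ext i; simp

theorem truncLin_surjective (n : ℕ) : Function.Surjective (truncLin (k := k) n) := by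
  intro c
  refine ⟨PowerSeries.mk fun m => if h : m < n then c ⟨m, h⟩ else 0, ?_⟩
  ext i
  simp [truncLin, PowerSeries.coeff_mk]

theorem finrank_quot_of_mem_iff (n : ℕ) (I : Ideal k⟦X⟧)
    (hI : ∀ f : k⟦X⟧, f ∈ I ↔ ∀ m < n, PowerSeries.coeff m f = 0) :
    FiniteDimensional k (k⟦X⟧ ⧸ I) ∧ finrank k (k⟦X⟧ ⧸ I) = n := by
  have hker : LinearMap.ker (truncLin (k := k) n) = I.restrictScalars k := by
    ext f
    rw [LinearMap.mem_ker, Submodule.restrictScalars_mem, hI]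
    constructor
    · intro h m hm
      exact congrFun h ⟨m, hm⟩
    · intro h
      ext i
      exact h i i.2
  let e1 : (k⟦X⟧ ⧸ I.restrictScalars k) ≃ₗ[k] (k⟦X⟧ ⧸ I) :=
    Submodule.Quotient.restrictScalarsEquiv k I
  let e2 : (k⟦X⟧ ⧸ LinearMap.ker (truncLin (k := k) n)) ≃ₗ[k] (Fin n → k) :=
    LinearMap.quotKerEquivOfSurjective (truncLin (k := k) n) (truncLin_surjective (k := k) n)
  let e3 : (k⟦X⟧ ⧸ LinearMap.ker (truncLin (k := k) n)) ≃ₗ[k]
      (k⟦X⟧ ⧸ I.restrictScalars k) :=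
    Submodule.quotEquivOfEq _ _ hker
  let e : (Fin n → k) ≃ₗ[k] (k⟦X⟧ ⧸ I) := e2.symm.trans (e3.trans e1)
  refine ⟨Module.Finite.equiv e, ?_⟩
  rw [← e.finrank_eq]
  simp

theorem finrank_quot_X_pow (n : ℕ) :
    FiniteDimensional k (k⟦X⟧ ⧸ Ideal.span {(PowerSeries.X : k⟦X⟧) ^ n}) ∧
      finrank k (k⟦X⟧ ⧸ Ideal.span {(PowerSeries.X : k⟦X⟧) ^ n}) = n :=
  finrank_quot_of_mem_iff n _ fun f => by
    rw [Ideal.mem_span_singleton, PowerSeries.X_pow_dvd_iff]

theorem finrank_quot_span_singleton (a : k⟦X⟧) (ha : a ≠ 0) :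
    FiniteDimensional k (k⟦X⟧ ⧸ Ideal.span {a}) ∧
      (finrank k (k⟦X⟧ ⧸ Ideal.span {a}) : ℕ∞) = a.order := by
  have hassoc : Associated ((PowerSeries.X : k⟦X⟧) ^ a.order.toNat) a := by
    have hu := PowerSeries.isUnit_divided_by_X_pow_order ha
    obtain ⟨u, hu⟩ := hu
    refine ⟨u, ?_⟩
    rw [hu, PowerSeries.X_pow_order_mul_divXPowOrder]
  have hspan : Ideal.span {a} = Ideal.span {(PowerSeries.X : k⟦X⟧) ^ a.order.toNat} :=
    (Ideal.span_singleton_eq_span_singleton.mpr hassoc).symm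
  rw [hspan]
  refine ⟨(finrank_quot_X_pow _).1, ?_⟩
  rw [(finrank_quot_X_pow _).2]
  exact ENat.natCast_toNat (PowerSeries.order_eq_top.not.mpr ha)

variable {ι : Type*} [Fintype ι] [DecidableEq ι]

theorem toLin'_injective_of_det_ne_zero (m : Matrix ι ι k⟦X⟧) (hm : m.det ≠ 0) :
    Function.Injective (Matrix.toLin' m) := by
  rw [← LinearMap.ker_eq_bot, LinearMap.ker_eq_bot']
  intro v hv
  exact Matrix.eq_zero_of_mulVec_eq_zero hm (by simpa using hv)

/-- The `k`-dimension of `k[[q]]^ι / m k[[q]]^ι` is the order of `det m`. -/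
theorem dvr_index (m : Matrix ι ι k⟦X⟧) (hm : m.det ≠ 0) :
    FiniteDimensional k ((ι → k⟦X⟧) ⧸ LinearMap.range (Matrix.toLin' m)) ∧
      (finrank k ((ι → k⟦X⟧) ⧸ LinearMap.range (Matrix.toLin' m)) : ℕ∞) = m.det.order := by
  classical
  set N : Submodule k⟦X⟧ (ι → k⟦X⟧) := LinearMap.range (Matrix.toLin' m) with hN
  let b : Basis ι k⟦X⟧ (ι → k⟦X⟧) := Pi.basisFun k⟦X⟧ ι
  let e₀ : (ι → k⟦X⟧) ≃ₗ[k⟦X⟧] N :=
    LinearEquiv.ofInjective (Matrix.toLin' m) (toLin'_injective_of_det_ne_zero m hm)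
  have h : finrank k⟦X⟧ N = finrank k⟦X⟧ (ι → k⟦X⟧) := e₀.finrank_eq.symm
  let a := Submodule.smithNormalFormCoeffs b h
  let b' := Submodule.smithNormalFormTopBasis b h
  let ab := Submodule.smithNormalFormBotBasis b h
  have ab_eq := Submodule.smithNormalFormBotBasis_def b h
  have ha0 : ∀ i, a i ≠ 0 := Submodule.smithNormalFormCoeffs_ne_zero b h
  -- the quotient is a product of cyclic modules
  let E : ((ι → k⟦X⟧) ⧸ N) ≃ₗ[k] (Π i, k⟦X⟧ ⧸ Ideal.span ({a i} : Set k⟦X⟧)) :=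
    (N.quotientEquivPiSpan b h).restrictScalars k
  have hfd : ∀ i, FiniteDimensional k (k⟦X⟧ ⧸ Ideal.span ({a i} : Set k⟦X⟧)) := fun i =>
    (finrank_quot_span_singleton (a i) (ha0 i)).1
  have hfr : ∀ i, (finrank k (k⟦X⟧ ⧸ Ideal.span ({a i} : Set k⟦X⟧)) : ℕ∞) = (a i).order :=
    fun i => (finrank_quot_span_singleton (a i) (ha0 i)).2
  refine ⟨Module.Finite.equiv E.symm, ?_⟩
  rw [E.finrank_eq, Module.finrank_pi_fintype]
  -- determinant computation
  let e' : (ι → k⟦X⟧) ≃ₗ[k⟦X⟧] N := b'.equiv ab (Equiv.refl _)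
  let f : (ι → k⟦X⟧) →ₗ[k⟦X⟧] (ι → k⟦X⟧) := N.subtype.comp (e' : (ι → k⟦X⟧) →ₗ[k⟦X⟧] N)
  have hf : ∀ i, f (b' i) = a i • b' i := by
    intro i
    change ((b'.equiv ab (Equiv.refl _) (b' i) : N) : ι → k⟦X⟧) = _
    rw [b'.equiv_apply, Equiv.refl_apply]
    exact ab_eq i
  have hdetf : LinearMap.det f = ∏ i, a i := by
    rw [← LinearMap.det_toMatrix b']
    have : LinearMap.toMatrix b' b' f = Matrix.diagonal a := by
      ext i j
      rw [LinearMap.toMatrix_apply, hf, map_smul, Basis.repr_self, Finsupp.smul_single,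
        smul_eq_mul, mul_one]
      by_cases hij : i = j
      · rw [hij, Matrix.diagonal_apply_eq, Finsupp.single_eq_same]
      · rw [Matrix.diagonal_apply_ne _ hij, Finsupp.single_eq_of_ne hij]
    rw [this, Matrix.det_diagonal]
  have hassoc : Associated (LinearMap.det f) m.det := by
    have h1 := LinearMap.associated_det_comp_equiv N.subtype e' e₀
    have h2 : (N.subtype.comp (e₀ : (ι → k⟦X⟧) →ₗ[k⟦X⟧] N)) = Matrix.toLin' m := by
      ext x : 1
      rfl
    rw [h2, LinearMap.det_toLin'] at h1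
    exact h1
  obtain ⟨u, hu⟩ := hassoc
  rw [← hu, hdetf, PowerSeries.order_mul]
  have hu0 : (u : k⟦X⟧).order = 0 := by
    rw [PowerSeries.order_zero_of_unit u.isUnit]
  rw [hu0, add_zero]
  rw [Nat.cast_sum]
  simp_rw [hfr]
  -- order of a product
  clear hu hdetf hf
  induction (Finset.univ : Finset ι) using Finset.induction_on with
  | empty => simp
  | insert i s hi ih => rw [Finset.sum_insert hi, Finset.prod_insert hi, PowerSeries.order_mul, ih]

end Fermat.Agent.S20_helper83
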