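import Mathlib

/-!
# `k((q)) = k[J] + k[[q]]` and `k[J] ∩ k[[q]] = k` for `J` with a simple pole
-/

set_option autoImplicit false

namespace Fermat.Agent.S20_helper83

open scoped LaurentSeries PowerSeries Polynomial
open HahnSeries

variable {k : Type*} [Field k]

/-- `f` lies in `k[[q]]`. -/
def IsInt (f : k⸨X⸩) : Prop := ∃ u : k⟦X⟧, f = (u : k⸨X⸩)

/-- `f` lies in `k[J]`. -/
def IsPoly (J f : k⸨X⸩) : Prop := ∃ p : k[X], f = Polynomial.eval₂ (HahnSeries.C : k →+* k⸨X⸩) J p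

theorem isInt_iff (f : k⸨X⸩) : IsInt f ↔ ∀ i : ℤ, i < 0 → f.coeff i = 0 := by
  constructor
  · rintro ⟨u, rfl⟩ i hi
    rw [PowerSeries.coeff_coe, if_pos hi]
  · intro h
    refine ⟨PowerSeries.mk fun n => f.coeff n, ?_⟩
    ext i
    rw [PowerSeries.coeff_coe]
    split_ifs with hi
    · exact h i hi
    · rw [PowerSeries.coeff_mk]
      congr 1
      omega

theorem IsInt.zero : IsInt (0 : k⸨X⸩) := ⟨0, by simp⟩

theorem IsInt.add {f g : k⸨X⸩} (hf : IsInt f) (hg : IsInt g) : IsInt (f + g) := by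
  obtain ⟨u, rfl⟩ := hf
  obtain ⟨v, rfl⟩ := hg
  exact ⟨u + v, by simp⟩

theorem IsInt.neg {f : k⸨X⸩} (hf : IsInt f) : IsInt (-f) := by
  obtain ⟨u, rfl⟩ := hf
  exact ⟨-u, by simp⟩

theorem IsInt.sub {f g : k⸨X⸩} (hf : IsInt f) (hg : IsInt g) : IsInt (f - g) := by
  rw [sub_eq_add_neg]; exact hf.add hg.neg

theorem IsInt.mul {f g : k⸨X⸩} (hf : IsInt f) (hg : IsInt g) : IsInt (f * g) := by
  obtain ⟨u, rfl⟩ := hf
  obtain ⟨v, rfl⟩ := hg
  exact ⟨u * v, by simp⟩

theorem IsInt.C (c : k) : IsInt (HahnSeries.C c : k⸨X⸩) :=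
  ⟨PowerSeries.C c, by simp⟩

theorem IsInt.one : IsInt (1 : k⸨X⸩) := ⟨1, by simp⟩

theorem IsInt.sum {ι : Type*} (s : Finset ι) (f : ι → k⸨X⸩) (h : ∀ i ∈ s, IsInt (f i)) :
    IsInt (∑ i ∈ s, f i) := by
  classical
  induction s using Finset.induction_on with
  | empty => simpa using IsInt.zero
  | insert a s ha ih =>
    rw [Finset.sum_insert ha]
    exact (h a (Finset.mem_insert_self a s)).add
      (ih fun i hi => h i (Finset.mem_insert_of_mem hi))

theorem IsPoly.zero (J : k⸨X⸩) : IsPoly J 0 := ⟨0, by simp⟩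

theorem IsPoly.add {J f g : k⸨X⸩} (hf : IsPoly J f) (hg : IsPoly J g) : IsPoly J (f + g) := by
  obtain ⟨p, rfl⟩ := hf
  obtain ⟨q, rfl⟩ := hg
  exact ⟨p + q, by rw [Polynomial.eval₂_add]⟩

theorem IsPoly.neg {J f : k⸨X⸩} (hf : IsPoly J f) : IsPoly J (-f) := by
  obtain ⟨p, rfl⟩ := hf
  exact ⟨-p, by rw [Polynomial.eval₂_neg]⟩

theorem IsPoly.mul {J f g : k⸨X⸩} (hf : IsPoly J f) (hg : IsPoly J g) : IsPoly J (f * g) := by
  obtain ⟨p, rfl⟩ := hf
  obtain ⟨q, rfl⟩ := hg
  exact ⟨p * q, by rw [Polynomial.eval₂_mul]⟩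

theorem IsPoly.C (J : k⸨X⸩) (c : k) : IsPoly J (HahnSeries.C c : k⸨X⸩) :=
  ⟨Polynomial.C c, by rw [Polynomial.eval₂_C]⟩

theorem IsPoly.self (J : k⸨X⸩) : IsPoly J J := ⟨Polynomial.X, by rw [Polynomial.eval₂_X]⟩

theorem IsPoly.sum {J : k⸨X⸩} {ι : Type*} (s : Finset ι) (f : ι → k⸨X⸩)
    (h : ∀ i ∈ s, IsPoly J (f i)) : IsPoly J (∑ i ∈ s, f i) := by
  classical
  induction s using Finset.induction_on with
  | empty => simpa using IsPoly.zero J
  | insert a s ha ih =>
    rw [Finset.sum_insert ha]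
    exact (h a (Finset.mem_insert_self a s)).add
      (ih fun i hi => h i (Finset.mem_insert_of_mem hi))

section Pole

variable {J : k⸨X⸩} (hJ : J.order = -1)
include hJ

theorem J_ne_zero : J ≠ 0 := by
  rintro rfl
  simp at hJ

theorem order_J_pow (n : ℕ) : (J ^ n).order = -(n : ℤ) := by
  rw [HahnSeries.order_pow, hJ]
  simp

theorem coeff_J_pow (n : ℕ) : (J ^ n).coeff (-(n : ℤ)) = J.leadingCoeff ^ n := by
  rw [← order_J_pow hJ n, ← HahnSeries.leadingCoeff_eq]
  induction n with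
  | zero => simp
  | succ n ih => rw [pow_succ, HahnSeries.leadingCoeff_mul, ih, pow_succ]

theorem coeff_J_pow_of_lt (n : ℕ) {i : ℤ} (hi : i < -(n : ℤ)) : (J ^ n).coeff i = 0 :=
  HahnSeries.coeff_eq_zero_of_lt_order (by rw [order_J_pow hJ n]; exact hi)

theorem leadingCoeff_J_ne_zero : J.leadingCoeff ≠ 0 :=
  HahnSeries.leadingCoeff_ne_zero.mpr (J_ne_zero hJ)

/-- Every Laurent series with pole order at most `n` is a polynomial in `J` plus a power
series. -/
theorem exists_decomp_aux (n : ℕ) :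
    ∀ f : k⸨X⸩, (∀ i : ℤ, i < -(n : ℤ) → f.coeff i = 0) →
      ∃ p : k[X], p.natDegree ≤ n ∧ IsInt (f - Polynomial.eval₂ (HahnSeries.C : k →+* k⸨X⸩) J p) := by
  induction n with
  | zero =>
    intro f hf
    refine ⟨0, by simp, ?_⟩
    rw [Polynomial.eval₂_zero, sub_zero, isInt_iff]
    intro i hi
    exact hf i (by simpa using hi)
  | succ n ih =>
    intro f hf
    set l := J.leadingCoeff with hl
    have hl0 : l ^ (n + 1) ≠ 0 := pow_ne_zero _ (leadingCoeff_J_ne_zero hJ)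
    set c := f.coeff (-((n + 1 : ℕ) : ℤ)) / l ^ (n + 1) with hc
    set g := f - HahnSeries.C c * J ^ (n + 1) with hg
    have hgc : ∀ i : ℤ, i < -(n : ℤ) → g.coeff i = 0 := by
      intro i hi
      rw [hg, HahnSeries.coeff_sub, HahnSeries.C_mul_eq_smul, HahnSeries.coeff_smul, smul_eq_mul]
      rcases lt_or_eq_of_le (show i ≤ -((n + 1 : ℕ) : ℤ) by push_cast; omega) with h | h
      · rw [hf i h, coeff_J_pow_of_lt hJ (n + 1) h, mul_zero, sub_zero]
      · rw [h, coeff_J_pow hJ (n + 1), hc, div_mul_cancel₀ _ hl0, sub_self]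
    obtain ⟨p, hp, hint⟩ := ih g hgc
    refine ⟨p + Polynomial.C c * Polynomial.X ^ (n + 1), ?_, ?_⟩
    · refine (Polynomial.natDegree_add_le _ _).trans (max_le (hp.trans (Nat.le_succ n)) ?_)
      exact (Polynomial.natDegree_C_mul_X_pow_le c (n + 1))
    · have : f - Polynomial.eval₂ (HahnSeries.C : k →+* k⸨X⸩) J
          (p + Polynomial.C c * Polynomial.X ^ (n + 1)) =
          g - Polynomial.eval₂ (HahnSeries.C : k →+* k⸨X⸩) J p := by
        rw [Polynomial.eval₂_add, Polynomial.eval₂_mul, Polynomial.eval₂_C, Polynomial.eval₂_pow,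
          Polynomial.eval₂_X, hg]
        ring
      rw [this]
      exact hint

/-- `k((q)) = k[J] + k[[q]]`. -/
theorem exists_decomp (f : k⸨X⸩) : ∃ g h : k⸨X⸩, IsPoly J g ∧ IsInt h ∧ f = g + h := by
  obtain ⟨n, hn⟩ : ∃ n : ℕ, ∀ i : ℤ, i < -(n : ℤ) → f.coeff i = 0 := by
    refine ⟨(-f.order).toNat, fun i hi => HahnSeries.coeff_eq_zero_of_lt_order ?_⟩
    have := Int.self_le_toNat (-f.order)
    omega
  obtain ⟨p, -, hp⟩ := exists_decomp_aux hJ n f hn
  exact ⟨_, _, ⟨p, rfl⟩, hp, by ring⟩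

/-- The order of a nonzero polynomial in `J`. -/
theorem coeff_eval₂_of_natDegree_le (n : ℕ) :
    ∀ p : k[X], p.natDegree ≤ n →
      (∀ i : ℤ, i < -(n : ℤ) →
        (Polynomial.eval₂ (HahnSeries.C : k →+* k⸨X⸩) J p).coeff i = 0) ∧
      (Polynomial.eval₂ (HahnSeries.C : k →+* k⸨X⸩) J p).coeff (-(n : ℤ)) =
        p.coeff n * J.leadingCoeff ^ n := by
  induction n with
  | zero =>
    intro p hp
    rw [Polynomial.eq_C_of_natDegree_le_zero hp, Polynomial.eval₂_C]
    constructor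
    · intro i hi
      rw [HahnSeries.C_apply, HahnSeries.coeff_single, if_neg]
      simp only [CharP.cast_eq_zero, neg_zero] at hi
      exact hi.ne
    · simp [HahnSeries.C_apply]
  | succ n ih =>
    intro p hp
    have hdecomp : p = p.erase (n + 1) + Polynomial.C (p.coeff (n + 1)) * Polynomial.X ^ (n + 1) := by
      rw [Polynomial.C_mul_X_pow_eq_monomial]
      exact (Polynomial.monomial_add_erase p (n + 1)).symm.trans (add_comm _ _)
    have hdeg : (p.erase (n + 1)).natDegree ≤ n := by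
      by_cases hp0 : p.natDegree = n + 1
      · have := Polynomial.eraseLead_natDegree_le p
        rw [Polynomial.eraseLead, hp0] at this
        simpa using this
      · have hlt : p.natDegree < n + 1 := lt_of_le_of_ne hp hp0
        have : p.erase (n + 1) = p := by
          ext m
          rw [Polynomial.coeff_erase]
          split_ifs with hm
          · rw [hm, Polynomial.coeff_eq_zero_of_natDegree_lt hlt]
          · rfl
        rw [this]
        omega
    obtain ⟨ih1, ih2⟩ := ih (p.erase (n + 1)) hdeg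
    have hev : Polynomial.eval₂ (HahnSeries.C : k →+* k⸨X⸩) J p =
        Polynomial.eval₂ (HahnSeries.C : k →+* k⸨X⸩) J (p.erase (n + 1)) +
          HahnSeries.C (p.coeff (n + 1)) * J ^ (n + 1) := by
      conv_lhs => rw [hdecomp]
      rw [Polynomial.eval₂_add, Polynomial.eval₂_mul, Polynomial.eval₂_C, Polynomial.eval₂_pow,
        Polynomial.eval₂_X]
    constructor
    · intro i hi
      rw [hev, HahnSeries.coeff_add, HahnSeries.C_mul_eq_smul, HahnSeries.coeff_smul,
        coeff_J_pow_of_lt hJ (n + 1) hi, smul_zero, add_zero]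
      exact ih1 i (by push_cast at hi ⊢; omega)
    · rw [hev, HahnSeries.coeff_add, HahnSeries.C_mul_eq_smul, HahnSeries.coeff_smul,
        coeff_J_pow hJ (n + 1), smul_eq_mul]
      rw [ih1 _ (by push_cast; omega), zero_add]

/-- `k[J] ∩ k[[q]] = k`. -/
theorem isConst_of_isPoly_of_isInt {f : k⸨X⸩} (hp : IsPoly J f) (hi : IsInt f) :
    ∃ c : k, f = HahnSeries.C c := by
  obtain ⟨p, rfl⟩ := hp
  by_cases hdeg : p.natDegree = 0
  · refine ⟨p.coeff 0, ?_⟩
    rw [Polynomial.eq_C_of_natDegree_eq_zero hdeg, Polynomial.eval₂_C, Polynomial.coeff_C_zero]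
  · exfalso
    have h2 := (coeff_eval₂_of_natDegree_le hJ p.natDegree p le_rfl).2
    rw [(isInt_iff _).mp hi _ (by
      have : 0 < p.natDegree := Nat.pos_of_ne_zero hdeg
      omega)] at h2
    have hlc : p.coeff p.natDegree ≠ 0 := by
      rw [Polynomial.coeff_natDegree, Polynomial.leadingCoeff_ne_zero]
      rintro rfl
      simp at hdeg
    exact mul_ne_zero hlc (pow_ne_zero _ (leadingCoeff_J_ne_zero hJ)) h2.symm

end Pole

end Fermat.Agent.S20_helper83
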