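import Fermat.Agent.S20_helper83.IndexStep
import Fermat.Agent.S20_helper83.LaurentDecomp
import Fermat.Agent.S20_helper83.DVRIndex

/-!
# The index theorem for a pair of lattices on the projective line

`k` a field, `F = k((q))`, `J ∈ F` with a simple pole, `V` a finite-dimensional `F`-vector space
with bases `b`, `c`.  `latA J b` is the `k[J]`-span of `b`, `latO c` is the `k[[q]]`-span of `c`.
Then `H⁰ = latA J b ⊓ latO c` and `H¹ = V ⧸ (latA J b ⊔ latO c)` are finite-dimensional over `k` and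
`dim H⁰ - dim H¹ = card ι + order (det (c.toMatrix b))`.
-/

set_option autoImplicit false
set_option linter.unusedSectionVars false

namespace Fermat.Agent.S20_helper83

open scoped LaurentSeries PowerSeries Polynomial
open Module

variable {k : Type*} [Field k]
variable {V : Type*} [AddCommGroup V] [Module k V] [Module k⸨X⸩ V]
variable {ι : Type*}

/-- Compatibility of the `k`-action and the `k((q))`-action on `V`. -/
def SMulCompat (k : Type*) [Field k] (V : Type*) [AddCommGroup V] [Module k V]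
    [Module k⸨X⸩ V] : Prop :=
  ∀ (a : k) (v : V), a • v = (HahnSeries.C a : k⸨X⸩) • v

theorem smulCompat_of_isScalarTower [IsScalarTower k k⸨X⸩ V] : SMulCompat k V := by
  intro a v
  have : (HahnSeries.C a : k⸨X⸩) = a • (1 : k⸨X⸩) := by
    rw [← HahnSeries.C_mul_eq_smul, mul_one]
  rw [this, smul_assoc, one_smul]

variable (hs : SMulCompat k V)

/-- The `k[J]`-span of the basis `b`, as a `k`-subspace. -/
def latA (J : k⸨X⸩) (b : Basis ι k⸨X⸩ V) : Submodule k V where
  carrier := {v | ∀ i, IsPoly J (b.repr v i)}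
  zero_mem' := fun i => by simpa using IsPoly.zero J
  add_mem' := fun {v w} hv hw i => by
    rw [map_add]; exact (hv i).add (hw i)
  smul_mem' := fun a v hv i => by
    rw [hs a v, map_smul]
    exact (IsPoly.C J a).mul (hv i)

/-- The `k[[q]]`-span of the basis `c`, as a `k`-subspace. -/
def latO (c : Basis ι k⸨X⸩ V) : Submodule k V where
  carrier := {v | ∀ i, IsInt (c.repr v i)}
  zero_mem' := fun i => by simpa using IsInt.zero
  add_mem' := fun {v w} hv hw i => by
    rw [map_add]; exact (hv i).add (hw i)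
  smul_mem' := fun a v hv i => by
    rw [hs a v, map_smul]
    exact (IsInt.C a).mul (hv i)

theorem mem_latA {J : k⸨X⸩} {b : Basis ι k⸨X⸩ V} {v : V} :
    v ∈ latA hs J b ↔ ∀ i, IsPoly J (b.repr v i) := Iff.rfl

theorem mem_latO {c : Basis ι k⸨X⸩ V} {v : V} :
    v ∈ latO hs c ↔ ∀ i, IsInt (c.repr v i) := Iff.rfl

variable [Fintype ι] [DecidableEq ι]

/-- Integrality of a matrix over `k((q))`. -/
def IsIntMatrix (M : Matrix ι ι k⸨X⸩) : Prop := ∀ i j, IsInt (M i j)

omit [DecidableEq ι] in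
theorem latO_le_of_isIntMatrix {c c' : Basis ι k⸨X⸩ V} (h : IsIntMatrix (c.toMatrix c')) :
    latO hs c' ≤ latO hs c := by
  intro v hv i
  rw [← Basis.toMatrix_mulVec_repr c' c v]
  simp only [Matrix.mulVec, dotProduct]
  exact IsInt.sum _ _ fun j _ => (h i j).mul (hv j)

/-! ### The base case `c = b` -/

section Base

variable {J : k⸨X⸩} (b : Basis ι k⸨X⸩ V)

/-- `x ↦ ∑ i, x i • b i` for constant coefficients. -/
noncomputable def constEmb : (ι → k) →ₗ[k] V where
  toFun x := ∑ i, (HahnSeries.C (x i) : k⸨X⸩) • b i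
  map_add' x y := by
    simp only [Pi.add_apply, map_add, add_smul, Finset.sum_add_distrib]
  map_smul' a x := by
    simp only [Pi.smul_apply, smul_eq_mul, map_mul, RingHom.id_apply]
    rw [hs a, Finset.smul_sum]
    simp only [smul_smul]

theorem repr_constEmb (x : ι → k) (i : ι) :
    b.repr (constEmb hs b x) i = HahnSeries.C (x i) := by
  simp only [constEmb, LinearMap.coe_mk, AddHom.coe_mk, map_sum, map_smul, Basis.repr_self,
    Finsupp.coe_finsetSum, Finsupp.coe_smul, Finset.sum_apply, Pi.smul_apply, smul_eq_mul,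
    Finsupp.single_apply, mul_ite, mul_one, mul_zero, Finset.sum_ite_eq', Finset.mem_univ,
    if_true]

theorem constEmb_injective : Function.Injective (constEmb hs b) := by
  rw [← LinearMap.ker_eq_bot, LinearMap.ker_eq_bot']
  intro x hx
  ext i
  have := repr_constEmb hs b x i
  rw [hx] at this
  simp only [map_zero, Finsupp.coe_zero, Pi.zero_apply] at this
  exact HahnSeries.C_injective (by rw [← this]; simp)

theorem range_constEmb (hJ : J.order = -1) :
    LinearMap.range (constEmb hs b) = latA hs J b ⊓ latO hs b := by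
  ext v
  constructor
  · rintro ⟨x, rfl⟩
    refine ⟨fun i => ?_, fun i => ?_⟩
    · rw [repr_constEmb]; exact IsPoly.C J _
    · rw [repr_constEmb]; exact IsInt.C _
  · rintro ⟨hA, hO⟩
    have hc : ∀ i, ∃ a : k, b.repr v i = HahnSeries.C a := fun i =>
      isConst_of_isPoly_of_isInt hJ (hA i) (hO i)
    choose x hx using hc
    refine ⟨x, ?_⟩
    apply b.repr.injective
    ext i
    rw [repr_constEmb, hx]

theorem base_h0 (hJ : J.order = -1) :
    FiniteDimensional k ↥(latA hs J b ⊓ latO hs b) ∧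
      finrank k ↥(latA hs J b ⊓ latO hs b) = Fintype.card ι := by
  let e : (ι → k) ≃ₗ[k] ↥(latA hs J b ⊓ latO hs b) :=
    (LinearEquiv.ofInjective (constEmb hs b) (constEmb_injective hs b)).trans
      (LinearEquiv.ofEq _ _ (range_constEmb hs b hJ))
  refine ⟨Module.Finite.equiv e, ?_⟩
  rw [← e.finrank_eq]
  simp

theorem base_sup (hJ : J.order = -1) : latA hs J b ⊔ latO hs b = ⊤ := by
  rw [eq_top_iff]
  intro v _
  have hd : ∀ i, ∃ g h : k⸨X⸩, IsPoly J g ∧ IsInt h ∧ b.repr v i = g + h := fun i =>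
    exists_decomp hJ (b.repr v i)
  choose g h hg hh hgh using hd
  rw [Submodule.mem_sup]
  refine ⟨∑ i, g i • b i, fun i => ?_, ∑ i, h i • b i, fun i => ?_, ?_⟩
  · have : b.repr (∑ j, g j • b j) i = g i := by
      simp only [map_sum, map_smul, Basis.repr_self, Finsupp.coe_finsetSum, Finsupp.coe_smul,
        Finset.sum_apply, Pi.smul_apply, smul_eq_mul, Finsupp.single_apply, mul_ite, mul_one,
        mul_zero, Finset.sum_ite_eq', Finset.mem_univ, if_true]
    rw [this]; exact hg i
  · have : b.repr (∑ j, h j • b j) i = h i := by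
      simp only [map_sum, map_smul, Basis.repr_self, Finsupp.coe_finsetSum, Finsupp.coe_smul,
        Finset.sum_apply, Pi.smul_apply, smul_eq_mul, Finsupp.single_apply, mul_ite, mul_one,
        mul_zero, Finset.sum_ite_eq', Finset.mem_univ, if_true]
    rw [this]; exact hh i
  · rw [← Finset.sum_add_distrib]
    conv_rhs => rw [← b.sum_repr v]
    refine Finset.sum_congr rfl fun i _ => ?_
    rw [hgh i, add_smul]

theorem base_h1 (hJ : J.order = -1) :
    FiniteDimensional k (V ⧸ (latA hs J b ⊔ latO hs b)) ∧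
      finrank k (V ⧸ (latA hs J b ⊔ latO hs b)) = 0 := by
  have : Subsingleton (V ⧸ (latA hs J b ⊔ latO hs b)) :=
    Submodule.Quotient.subsingleton_iff.mpr (base_sup hs b hJ)
  exact ⟨inferInstance, Module.finrank_zero_of_subsingleton⟩

end Base

/-! ### Colength of an inclusion of `k[[q]]`-lattices -/

section Colength

theorem order_coe_powerSeries (u : k⟦X⟧) (hu : u ≠ 0) :
    ((u : k⸨X⸩)).order = (u.order.toNat : ℤ) := by
  have hne : (u : k⸨X⸩) ≠ 0 := by
    intro h
    exact hu (HahnSeries.ofPowerSeries_injective (by rw [h, map_zero]))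
  have hfin : u.order ≠ ⊤ := PowerSeries.order_eq_top.not.mpr hu
  apply le_antisymm
  · apply HahnSeries.order_le_of_coeff_ne_zero
    rw [PowerSeries.coeff_coe, if_neg (by omega)]
    simp only [Int.natAbs_natCast]
    exact PowerSeries.coeff_order hu
  · rw [HahnSeries.le_order_iff_forall hne]
    intro j hj
    rw [PowerSeries.coeff_coe]
    split_ifs with hj0
    · rfl
    · apply PowerSeries.coeff_of_lt_order
      have h1 : (j.natAbs : ℤ) = j := Int.natAbs_of_nonneg (by omega)
      have h2 : j.natAbs < u.order.toNat := by omega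
      calc (j.natAbs : ℕ∞) < (u.order.toNat : ℕ∞) := by exact_mod_cast h2
        _ = u.order := ENat.natCast_toNat hfin

/-- `u ↦ ∑ i, u i • c i` for power series coefficients. -/
noncomputable def intEmb (c : Basis ι k⸨X⸩ V) : (ι → k⟦X⟧) →ₗ[k] V where
  toFun u := ∑ i, ((u i : k⟦X⟧) : k⸨X⸩) • c i
  map_add' u w := by
    simp only [Pi.add_apply, map_add, add_smul, Finset.sum_add_distrib]
  map_smul' a u := by
    simp only [Pi.smul_apply, RingHom.id_apply]
    rw [hs a, Finset.smul_sum]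
    refine Finset.sum_congr rfl fun i _ => ?_
    rw [smul_smul, PowerSeries.coe_smul, HahnSeries.C_mul_eq_smul]

theorem repr_intEmb (c : Basis ι k⸨X⸩ V) (u : ι → k⟦X⟧) (i : ι) :
    c.repr (intEmb hs c u) i = ((u i : k⟦X⟧) : k⸨X⸩) := by
  simp only [intEmb, LinearMap.coe_mk, AddHom.coe_mk, map_sum, map_smul, Basis.repr_self,
    Finsupp.coe_finsetSum, Finsupp.coe_smul, Finset.sum_apply, Pi.smul_apply, smul_eq_mul,
    Finsupp.single_apply, mul_ite, mul_one, mul_zero, Finset.sum_ite_eq', Finset.mem_univ,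
    if_true]

theorem intEmb_injective (c : Basis ι k⸨X⸩ V) : Function.Injective (intEmb hs c) := by
  rw [← LinearMap.ker_eq_bot, LinearMap.ker_eq_bot']
  intro u hu
  ext i : 1
  have := repr_intEmb hs c u i
  rw [hu] at this
  simp only [map_zero, Finsupp.coe_zero, Pi.zero_apply] at this
  exact HahnSeries.ofPowerSeries_injective (by rw [← this]; simp)

theorem range_intEmb (c : Basis ι k⸨X⸩ V) : LinearMap.range (intEmb hs c) = latO hs c := by
  ext v
  constructor
  · rintro ⟨u, rfl⟩ i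
    rw [repr_intEmb]
    exact ⟨u i, rfl⟩
  · intro hv
    choose u hu using hv
    refine ⟨u, ?_⟩
    apply c.repr.injective
    ext i
    rw [repr_intEmb, hu]

/-- The `k`-linear identification `k[[q]]^ι ≃ latO c`. -/
noncomputable def intEquiv (c : Basis ι k⸨X⸩ V) : (ι → k⟦X⟧) ≃ₗ[k] ↥(latO hs c) :=
  (LinearEquiv.ofInjective (intEmb hs c) (intEmb_injective hs c)).trans
    (LinearEquiv.ofEq _ _ (range_intEmb hs c))

theorem coe_intEquiv (c : Basis ι k⸨X⸩ V) (u : ι → k⟦X⟧) :
    ((intEquiv hs c u : ↥(latO hs c)) : V) = intEmb hs c u := rfl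

/-- Change of basis: `intEmb c (m *ᵥ w) = intEmb c' w` when `c.toMatrix c' = m`. -/
theorem intEmb_mulVec (c c' : Basis ι k⸨X⸩ V) (m : Matrix ι ι k⟦X⟧)
    (hm : ∀ i j, c.toMatrix c' i j = ((m i j : k⟦X⟧) : k⸨X⸩)) (w : ι → k⟦X⟧) :
    intEmb hs c (m.mulVec w) = intEmb hs c' w := by
  apply c.repr.injective
  ext i
  rw [repr_intEmb, ← Basis.toMatrix_mulVec_repr c' c]
  simp only [Matrix.mulVec, dotProduct, repr_intEmb, hm, map_sum, map_mul]

theorem latO_colength (c c' : Basis ι k⸨X⸩ V) (h : IsIntMatrix (c.toMatrix c')) :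
    FiniteDimensional k (↥(latO hs c) ⧸ (latO hs c').submoduleOf (latO hs c)) ∧
      (finrank k (↥(latO hs c) ⧸ (latO hs c').submoduleOf (latO hs c)) : ℤ) =
        (c.toMatrix c').det.order := by
  classical
  choose m hm using h
  have hmap : c.toMatrix c' = (HahnSeries.ofPowerSeries ℤ k).mapMatrix (Matrix.of m) := by
    ext i j
    rw [hm i j]
    rfl
  have hdet : (c.toMatrix c').det = (((Matrix.of m).det : k⟦X⟧) : k⸨X⸩) := by
    rw [hmap, ← RingHom.map_det]
  have hdet0 : (Matrix.of m).det ≠ 0 := by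
    intro h0
    have hunit : IsUnit (c.toMatrix c').det := by
      have := Basis.invertibleToMatrix c c'
      exact Matrix.isUnit_det_of_invertible _
    rw [hdet, h0] at hunit
    simp at hunit
  obtain ⟨hfd, hfr⟩ := dvr_index (Matrix.of m) hdet0
  set N : Submodule k⟦X⟧ (ι → k⟦X⟧) := LinearMap.range (Matrix.toLin' (Matrix.of m)) with hN
  have hPQ : (N.restrictScalars k).map (intEquiv hs c : (ι → k⟦X⟧) →ₗ[k] ↥(latO hs c)) =
      (latO hs c').submoduleOf (latO hs c) := by
    ext x
    rw [Submodule.mem_map, Submodule.submoduleOf, Submodule.mem_comap, Submodule.coe_subtype,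
      ← range_intEmb hs c']
    constructor
    · rintro ⟨u, hu, rfl⟩
      rw [Submodule.restrictScalars_mem] at hu
      obtain ⟨w, rfl⟩ := hu
      refine ⟨w, ?_⟩
      rw [LinearEquiv.coe_coe, coe_intEquiv, Matrix.toLin'_apply]
      exact (intEmb_mulVec hs c c' (Matrix.of m) hm w).symm
    · rintro ⟨w, hw⟩
      refine ⟨(Matrix.of m).mulVec w, ?_, ?_⟩
      · rw [Submodule.restrictScalars_mem]
        exact ⟨w, by rw [Matrix.toLin'_apply]⟩
      · apply Subtype.ext
        rw [LinearEquiv.coe_coe, coe_intEquiv, intEmb_mulVec hs c c' (Matrix.of m) hm w, hw]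
  let E1 : ((ι → k⟦X⟧) ⧸ N.restrictScalars k) ≃ₗ[k]
      (↥(latO hs c) ⧸ (latO hs c').submoduleOf (latO hs c)) :=
    Submodule.Quotient.equiv (N.restrictScalars k) _ (intEquiv hs c) hPQ
  let E2 : ((ι → k⟦X⟧) ⧸ N.restrictScalars k) ≃ₗ[k] ((ι → k⟦X⟧) ⧸ N) :=
    Submodule.Quotient.restrictScalarsEquiv k N
  let E : ((ι → k⟦X⟧) ⧸ N) ≃ₗ[k] (↥(latO hs c) ⧸ (latO hs c').submoduleOf (latO hs c)) :=
    E2.symm.trans E1
  refine ⟨Module.Finite.equiv E, ?_⟩
  rw [← E.finrank_eq, hdet, order_coe_powerSeries _ hdet0]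
  have hfin : (Matrix.of m).det.order ≠ ⊤ := PowerSeries.order_eq_top.not.mpr hdet0
  have : finrank k ((ι → k⟦X⟧) ⧸ N) = (Matrix.of m).det.order.toNat := by
    rw [← hfr]; simp
  rw [this]

end Colength

/-! ### Scaling a basis by a power of `q` -/

section Scale

theorem isUnit_qpow (n : ℕ) : IsUnit (HahnSeries.single (n : ℤ) (1 : k) : k⸨X⸩) := by
  refine IsUnit.of_mul_eq_one (HahnSeries.single (-(n : ℤ)) (1 : k)) ?_
  rw [HahnSeries.single_mul_single]
  simp

/-- The basis `q^n • b`. -/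
noncomputable def scaleBasis (n : ℕ) (b : Basis ι k⸨X⸩ V) : Basis ι k⸨X⸩ V :=
  b.isUnitSMul (fun _ => isUnit_qpow (k := k) n)

omit [Fintype ι] in
theorem toMatrix_scaleBasis (n : ℕ) (b : Basis ι k⸨X⸩ V) :
    b.toMatrix (scaleBasis n b) = Matrix.diagonal fun _ => (HahnSeries.single (n : ℤ) (1 : k)) :=
  Basis.toMatrix_isUnitSMul b _

theorem isInt_qpow (n : ℕ) : IsInt (HahnSeries.single (n : ℤ) (1 : k) : k⸨X⸩) :=
  ⟨PowerSeries.X ^ n, (HahnSeries.ofPowerSeries_X_pow n).symm⟩

omit [Fintype ι] in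
theorem isIntMatrix_self_scaleBasis (n : ℕ) (b : Basis ι k⸨X⸩ V) :
    IsIntMatrix (b.toMatrix (scaleBasis n b)) := by
  intro i j
  rw [toMatrix_scaleBasis, Matrix.diagonal_apply]
  split_ifs
  · exact isInt_qpow n
  · exact IsInt.zero

theorem exists_isInt_qpow_mul (f : k⸨X⸩) : ∃ n₀ : ℕ, ∀ n : ℕ, n₀ ≤ n →
    IsInt (HahnSeries.single (n : ℤ) (1 : k) * f) := by
  refine ⟨(-f.order).toNat, fun n hn => ?_⟩
  rw [isInt_iff]
  intro i hi
  rw [HahnSeries.coeff_single_mul, one_mul]
  apply HahnSeries.coeff_eq_zero_of_lt_order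
  have := Int.self_le_toNat (-f.order)
  omega

omit [DecidableEq ι] in
theorem toMatrix_scaleBasis_apply (n : ℕ) (b c : Basis ι k⸨X⸩ V) (i j : ι) :
    c.toMatrix (scaleBasis n b) i j = HahnSeries.single (n : ℤ) (1 : k) * c.toMatrix b i j := by
  rw [Basis.toMatrix_apply, Basis.toMatrix_apply, scaleBasis, Basis.isUnitSMul_apply, map_smul]
  rfl

omit [DecidableEq ι] in
theorem exists_isIntMatrix_scaleBasis (b c : Basis ι k⸨X⸩ V) :
    ∃ n : ℕ, IsIntMatrix (c.toMatrix (scaleBasis n b)) := by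
  have h : ∀ p : ι × ι, ∃ n₀ : ℕ, ∀ n : ℕ, n₀ ≤ n →
      IsInt (HahnSeries.single (n : ℤ) (1 : k) * c.toMatrix b p.1 p.2) := fun p =>
    exists_isInt_qpow_mul _
  choose n₀ hn₀ using h
  refine ⟨∑ p, n₀ p, fun i j => ?_⟩
  rw [toMatrix_scaleBasis_apply]
  exact hn₀ (i, j) _ (Finset.single_le_sum (f := n₀) (fun _ _ => Nat.zero_le _)
    (Finset.mem_univ (i, j)))

end Scale

/-! ### The index theorem -/

section Main

variable {J : k⸨X⸩}

/-- **Index theorem for lattice pairs on the projective line.** -/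
theorem p1_index (hJ : J.order = -1) (b c : Basis ι k⸨X⸩ V) :
    FiniteDimensional k ↥(latA hs J b ⊓ latO hs c) ∧
    FiniteDimensional k (V ⧸ (latA hs J b ⊔ latO hs c)) ∧
    (finrank k ↥(latA hs J b ⊓ latO hs c) : ℤ) - finrank k (V ⧸ (latA hs J b ⊔ latO hs c)) =
      Fintype.card ι + (c.toMatrix b).det.order := by
  classical
  obtain ⟨n, hn⟩ := exists_isIntMatrix_scaleBasis b c
  set c'' := scaleBasis n b with hc''
  have hb : IsIntMatrix (b.toMatrix c'') := isIntMatrix_self_scaleBasis n b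
  have le_b : latO hs c'' ≤ latO hs b := latO_le_of_isIntMatrix hs hb
  have le_c : latO hs c'' ≤ latO hs c := latO_le_of_isIntMatrix hs hn
  obtain ⟨fd_b, fr_b⟩ := latO_colength hs b c'' hb
  obtain ⟨fd_c, fr_c⟩ := latO_colength hs c c'' hn
  obtain ⟨fd0, fr0⟩ := base_h0 hs b hJ
  obtain ⟨fd1, fr1⟩ := base_h1 hs b hJ
  -- go down from `b` to `c''`
  have fd0'' : FiniteDimensional k ↥(latA hs J b ⊓ latO hs c'') :=
    (fd_h0_step_iff (latA hs J b) (latO hs c'') (latO hs b) le_b).mpr fd0
  have fd1'' : FiniteDimensional k (V ⧸ (latA hs J b ⊔ latO hs c'')) :=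
    (fd_h1_step_iff (latA hs J b) (latO hs c'') (latO hs b) le_b).mpr fd1
  have step_b := index_step (latA hs J b) (latO hs c'') (latO hs b) le_b
  -- go up from `c''` to `c`
  have fd0c : FiniteDimensional k ↥(latA hs J b ⊓ latO hs c) :=
    (fd_h0_step_iff (latA hs J b) (latO hs c'') (latO hs c) le_c).mp fd0''
  have fd1c : FiniteDimensional k (V ⧸ (latA hs J b ⊔ latO hs c)) :=
    (fd_h1_step_iff (latA hs J b) (latO hs c'') (latO hs c) le_c).mp fd1''
  have step_c := index_step (latA hs J b) (latO hs c'') (latO hs c) le_c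
  refine ⟨fd0c, fd1c, ?_⟩
  -- determinants
  have hmul : c.toMatrix c'' = c.toMatrix b * b.toMatrix c'' :=
    (Basis.toMatrix_mul_toMatrix c b c'').symm
  have hdetb : (b.toMatrix c'').det ≠ 0 := by
    have := Basis.invertibleToMatrix b c''
    exact (Matrix.isUnit_det_of_invertible _).ne_zero
  have hdetcb : (c.toMatrix b).det ≠ 0 := by
    have := Basis.invertibleToMatrix c b
    exact (Matrix.isUnit_det_of_invertible _).ne_zero
  have hord : (c.toMatrix c'').det.order = (c.toMatrix b).det.order + (b.toMatrix c'').det.order := by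
    rw [hmul, Matrix.det_mul, HahnSeries.order_mul hdetcb hdetb]
  rw [fr_b, fr0, fr1] at step_b
  rw [fr_c, hord] at step_c
  omega

/-- Lower bound for `H⁰` (Riemann's inequality). -/
theorem p1_h0_ge (hJ : J.order = -1) (b c : Basis ι k⸨X⸩ V) :
    (Fintype.card ι : ℤ) + (c.toMatrix b).det.order ≤
      finrank k ↥(latA hs J b ⊓ latO hs c) := by
  obtain ⟨_, _, h⟩ := p1_index hs hJ b c
  have : (0 : ℤ) ≤ finrank k (V ⧸ (latA hs J b ⊔ latO hs c)) := Int.natCast_nonneg _
  omega

/-- `h¹ = h⁰ - χ`. -/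
theorem p1_h1_eq (hJ : J.order = -1) (b c : Basis ι k⸨X⸩ V) :
    (finrank k (V ⧸ (latA hs J b ⊔ latO hs c)) : ℤ) =
      finrank k ↥(latA hs J b ⊓ latO hs c) - (Fintype.card ι + (c.toMatrix b).det.order) := by
  obtain ⟨_, _, h⟩ := p1_index hs hJ b c
  omega

end Main

end Fermat.Agent.S20_helper83
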