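import Fermat.Agent.S20_helper83.P1Lattice

/-!
# The index theorem in matrix form

For `G : Matrix μ μ k((q))` with `det G ≠ 0` and `ξ ∈ k((q))` with a simple pole, the `k`-linear map
`polyMap ξ G : k[X]^μ → k((q))^μ`, `a ↦ G *ᵥ a(ξ)`, has:
* `kerSub ξ G = {a | G *ᵥ a(ξ) integral}` finite-dimensional,
* `k((q))^μ ⧸ (range (polyMap ξ G) ⊔ intVec)` finite-dimensional,
* `dim kerSub - dim coker = card μ + order (det G)`.
-/

set_option autoImplicit false
set_option linter.unusedSectionVars false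

namespace Fermat.Agent.S20_helper83

open scoped LaurentSeries PowerSeries Polynomial
open Module

variable {k : Type*} [Field k]
variable {μ : Type*} [Fintype μ] [DecidableEq μ]

theorem smulCompat_pi : SMulCompat k (μ → k⸨X⸩) := by
  intro a v
  ext1 i
  rw [Pi.smul_apply, Pi.smul_apply, smul_eq_mul, HahnSeries.C_mul_eq_smul]

/-- Evaluate a vector of polynomials at `ξ`. -/
noncomputable def polyVec (ξ : k⸨X⸩) (a : μ → k[X]) : μ → k⸨X⸩ :=
  fun j => (a j).eval₂ (HahnSeries.C : k →+* k⸨X⸩) ξ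

theorem polyVec_add (ξ : k⸨X⸩) (a a' : μ → k[X]) :
    polyVec ξ (a + a') = polyVec ξ a + polyVec ξ a' := by
  ext1 j; simp [polyVec, Polynomial.eval₂_add]

theorem polyVec_smul (ξ : k⸨X⸩) (c : k) (a : μ → k[X]) :
    polyVec ξ (c • a) = c • polyVec ξ a := by
  ext1 j
  simp only [polyVec, Pi.smul_apply]
  rw [Polynomial.smul_eq_C_mul, Polynomial.eval₂_mul, Polynomial.eval₂_C,
    HahnSeries.C_mul_eq_smul]

/-- The `k`-linear map `a ↦ G *ᵥ a(ξ)`. -/
noncomputable def polyMap (ξ : k⸨X⸩) (G : Matrix μ μ k⸨X⸩) : (μ → k[X]) →ₗ[k] (μ → k⸨X⸩) where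
  toFun a := G.mulVec (polyVec ξ a)
  map_add' a a' := by rw [polyVec_add, Matrix.mulVec_add]
  map_smul' c a := by
    rw [polyVec_smul, RingHom.id_apply]
    ext1 r
    simp only [Matrix.mulVec, dotProduct, Pi.smul_apply, Finset.smul_sum]
    refine Finset.sum_congr rfl fun j _ => ?_
    rw [← HahnSeries.C_mul_eq_smul, ← HahnSeries.C_mul_eq_smul]
    exact mul_left_comm _ _ _

/-- The integral vectors `k[[q]]^μ`. -/
def intVec : Submodule k (μ → k⸨X⸩) where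
  carrier := {w | ∀ i, IsInt (w i)}
  zero_mem' := fun _ => IsInt.zero
  add_mem' := fun {v w} hv hw i => (hv i).add (hw i)
  smul_mem' := fun a v hv i => by
    rw [Pi.smul_apply, ← HahnSeries.C_mul_eq_smul]
    exact (IsInt.C a).mul (hv i)

/-- The kernel of `k[X]^μ → k((q))^μ ⧸ k[[q]]^μ`, `a ↦ [G *ᵥ a(ξ)]`. -/
noncomputable def kerSub (ξ : k⸨X⸩) (G : Matrix μ μ k⸨X⸩) : Submodule k (μ → k[X]) :=
  (intVec (k := k) (μ := μ)).comap (polyMap ξ G)

theorem mem_kerSub {ξ : k⸨X⸩} {G : Matrix μ μ k⸨X⸩} {a : μ → k[X]} :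
    a ∈ kerSub ξ G ↔ ∀ r, IsInt ((G.mulVec (polyVec ξ a)) r) := Iff.rfl

theorem isInt_iff_order_nonneg (f : k⸨X⸩) : IsInt f ↔ 0 ≤ f.order := by
  rw [isInt_iff]
  by_cases hf : f = 0
  · subst hf; simp
  · rw [HahnSeries.le_order_iff_forall hf]

section Pole

variable {ξ : k⸨X⸩} (hξ : ξ.order = -1)
include hξ

theorem eval₂_eq_zero_iff (p : k[X]) :
    p.eval₂ (HahnSeries.C : k →+* k⸨X⸩) ξ = 0 ↔ p = 0 := by
  constructor
  · intro h
    by_contra hp
    have h2 := (coeff_eval₂_of_natDegree_le hξ p.natDegree p le_rfl).2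
    rw [h, HahnSeries.coeff_zero] at h2
    have hlc : p.coeff p.natDegree ≠ 0 := by
      rw [Polynomial.coeff_natDegree, Polynomial.leadingCoeff_ne_zero]; exact hp
    exact mul_ne_zero hlc (pow_ne_zero _ (leadingCoeff_J_ne_zero hξ)) h2.symm
  · rintro rfl
    simp

theorem polyVec_injective : Function.Injective (polyVec (μ := μ) ξ) := by
  intro a a' h
  ext1 j
  have hj := congrFun h j
  simp only [polyVec] at hj
  rw [← sub_eq_zero, ← Polynomial.eval₂_sub] at hj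
  exact sub_eq_zero.mp ((eval₂_eq_zero_iff hξ _).mp hj)

theorem polyMap_injective (G : Matrix μ μ k⸨X⸩) (hG : G.det ≠ 0) :
    Function.Injective (polyMap ξ G) := by
  intro a a' h
  apply polyVec_injective hξ
  have : G.mulVec (polyVec ξ a - polyVec ξ a') = 0 := by
    rw [Matrix.mulVec_sub]; exact sub_eq_zero.mpr h
  exact sub_eq_zero.mp (Matrix.eq_zero_of_mulVec_eq_zero hG this)

end Pole

/-- The basis of `k((q))^μ` given by the columns of `G`. -/
noncomputable def colBasis (G : Matrix μ μ k⸨X⸩) (hG : G.det ≠ 0) : Basis μ k⸨X⸩ (μ → k⸨X⸩) :=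
  (Pi.basisFun k⸨X⸩ μ).map
    (Matrix.toLinearEquiv (Pi.basisFun k⸨X⸩ μ) G (isUnit_iff_ne_zero.mpr hG))

theorem colBasis_apply (G : Matrix μ μ k⸨X⸩) (hG : G.det ≠ 0) (j r : μ) :
    colBasis G hG j r = G r j := by
  simp [colBasis, Matrix.toLinearEquiv, Matrix.toLin_eq_toLin', Matrix.toLin'_apply]

theorem toMatrix_colBasis (G : Matrix μ μ k⸨X⸩) (hG : G.det ≠ 0) :
    (Pi.basisFun k⸨X⸩ μ).toMatrix (colBasis G hG) = G := by
  ext i j
  rw [Basis.toMatrix_apply, Pi.basisFun_repr, colBasis_apply]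

theorem latO_basisFun :
    latO (smulCompat_pi (k := k) (μ := μ)) (Pi.basisFun k⸨X⸩ μ) = intVec := by
  ext v
  simp only [mem_latO, Pi.basisFun_repr]
  rfl

theorem sum_smul_colBasis (G : Matrix μ μ k⸨X⸩) (hG : G.det ≠ 0) (u : μ → k⸨X⸩) :
    ∑ j, u j • colBasis G hG j = G.mulVec u := by
  ext1 r
  simp only [Finset.sum_apply, Pi.smul_apply, colBasis_apply, smul_eq_mul, Matrix.mulVec,
    dotProduct]
  exact Finset.sum_congr rfl fun j _ => mul_comm _ _

theorem latA_colBasis (ξ : k⸨X⸩) (G : Matrix μ μ k⸨X⸩) (hG : G.det ≠ 0) :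
    latA (smulCompat_pi (k := k) (μ := μ)) ξ (colBasis G hG) = LinearMap.range (polyMap ξ G) := by
  ext v
  rw [mem_latA, LinearMap.mem_range]
  constructor
  · intro h
    choose p hp using h
    refine ⟨p, ?_⟩
    change G.mulVec (polyVec ξ p) = v
    rw [← sum_smul_colBasis G hG, ← (colBasis G hG).sum_repr v]
    refine Finset.sum_congr rfl fun j _ => ?_
    rw [hp j]; rfl
  · rintro ⟨a, rfl⟩ j
    change IsPoly ξ ((colBasis G hG).repr (G.mulVec (polyVec ξ a)) j)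
    rw [← sum_smul_colBasis G hG, (colBasis G hG).repr_sum_self]
    exact ⟨a j, rfl⟩

/-- `kerSub ξ G ≃ range (polyMap ξ G) ⊓ intVec`. -/
noncomputable def kerSubEquiv {ξ : k⸨X⸩} (hξ : ξ.order = -1) (G : Matrix μ μ k⸨X⸩)
    (hG : G.det ≠ 0) :
    ↥(kerSub ξ G) ≃ₗ[k] ↥(LinearMap.range (polyMap ξ G) ⊓ intVec (k := k) (μ := μ)) :=
  LinearEquiv.ofBijective
    (((polyMap ξ G).domRestrict (kerSub ξ G)).codRestrict
      (LinearMap.range (polyMap ξ G) ⊓ intVec (k := k) (μ := μ)) (fun a =>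
      Submodule.mem_inf.mpr ⟨⟨a.1, rfl⟩, a.2⟩))
    ⟨fun a a' h => Subtype.ext (polyMap_injective hξ G hG (congrArg Subtype.val h)),
     fun ⟨v, ⟨a, ha⟩, hv⟩ => ⟨⟨a, by
        change polyMap ξ G a ∈ intVec
        rw [ha]; exact hv⟩, Subtype.ext ha⟩⟩

/-- **Index theorem, matrix form.** -/
theorem matrix_index {ξ : k⸨X⸩} (hξ : ξ.order = -1) (G : Matrix μ μ k⸨X⸩) (hG : G.det ≠ 0) :
    FiniteDimensional k ↥(kerSub ξ G) ∧
    FiniteDimensional k ((μ → k⸨X⸩) ⧸ (LinearMap.range (polyMap ξ G) ⊔ intVec (k := k) (μ := μ))) ∧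
    (finrank k ↥(kerSub ξ G) : ℤ) -
        finrank k ((μ → k⸨X⸩) ⧸ (LinearMap.range (polyMap ξ G) ⊔ intVec (k := k) (μ := μ))) =
      Fintype.card μ + G.det.order := by
  have h := p1_index (smulCompat_pi (k := k) (μ := μ)) hξ (colBasis G hG) (Pi.basisFun k⸨X⸩ μ)
  rw [latA_colBasis, latO_basisFun, toMatrix_colBasis] at h
  obtain ⟨h0, h1, h2⟩ := h
  refine ⟨Module.Finite.equiv (kerSubEquiv hξ G hG).symm, h1, ?_⟩
  rw [(kerSubEquiv hξ G hG).finrank_eq]
  exact h2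

/-- **Riemann inequality, matrix form.** -/
theorem le_finrank_kerSub {ξ : k⸨X⸩} (hξ : ξ.order = -1) (G : Matrix μ μ k⸨X⸩) (hG : G.det ≠ 0) :
    (Fintype.card μ : ℤ) + G.det.order ≤ finrank k ↥(kerSub ξ G) := by
  obtain ⟨_, _, h⟩ := matrix_index hξ G hG
  have : (0 : ℤ) ≤ finrank k
      ((μ → k⸨X⸩) ⧸ (LinearMap.range (polyMap ξ G) ⊔ intVec (k := k) (μ := μ))) :=
    Int.natCast_nonneg _
  omega

theorem finiteDimensional_kerSub {ξ : k⸨X⸩} (hξ : ξ.order = -1) (G : Matrix μ μ k⸨X⸩)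
    (hG : G.det ≠ 0) : FiniteDimensional k ↥(kerSub ξ G) :=
  (matrix_index hξ G hG).1

end Fermat.Agent.S20_helper83
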