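import Fermat.Agent.S20.Puiseux
import Fermat.Agent.S28.MeroCuspInv
import Fermat.Agent.LevelOne_helper29.JSurj
import Fermat.Agent.S20_helper83.MatrixForm

/-!
# Boundedness at a cusp from integrality of Laurent expansions (analytic half of T20/C3)

`DeltaL`, `jL` are the Laurent expansions of `Δ` and `j` at `i∞`.  If `g a` (`a : ι`) are
`e`-periodic holomorphic bounded functions with Puiseux components `comp e i (g a)`, `p a` are
polynomials and all the series `DeltaL⁻¹ ^ n * ∑ a, (p a)(jL) * comp e i (g a)` (`i < e`) are power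
series, then `∑ a, (p a)(j) * (g a / Δ ^ n)` is bounded at `i∞`.
-/

set_option autoImplicit false

namespace Fermat.Agent.S20_helper83

open UpperHalfPlane Filter Topology Function ModularForm EisensteinSeries
open scoped Manifold LaurentSeries PowerSeries Polynomial MatrixGroups
open Fermat.Agent.S28 Fermat.Agent.S20.Puiseux Fermat.Agent.LevelOne_helper29

local notation "Δ" => ModularForm.discriminant
local notation "𝕢" => Periodic.qParam

/-- The Laurent expansion of `Δ` at `i∞`. -/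
noncomputable def DeltaL : ℂ⸨X⸩ := laurentExp 1 (Δ : ℍ → ℂ)

/-- The Laurent expansion of `j` at `i∞`. -/
noncomputable def jL : ℂ⸨X⸩ := laurentExp 1 jInv

theorem isMeroCusp_discriminant : IsMeroCusp 1 (Δ : ℍ → ℂ) :=
  isMeroCusp_of_modularForm CuspForm.discriminant one_pos one_mem_strictPeriods_SL

theorem isMeroCusp_E4 : IsMeroCusp 1 (E₄ : ℍ → ℂ) :=
  isMeroCusp_of_modularForm E₄ one_pos one_mem_strictPeriods_SL

theorem DeltaL_eq : DeltaL = ((qExpansion 1 (Δ : ℍ → ℂ) : ℂ⟦X⟧) : ℂ⸨X⸩) :=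
  laurentExp_of_modularForm CuspForm.discriminant one_pos one_mem_strictPeriods_SL

theorem jInv_eq_div : jInv = (E₄ : ℍ → ℂ) ^ 3 / (Δ : ℍ → ℂ) := by
  funext τ
  simp [jInv]

theorem isMeroCusp_jInv : IsMeroCusp 1 jInv := by
  rw [jInv_eq_div]
  exact (isMeroCusp_E4.pow 3).div one_pos isMeroCusp_discriminant discriminant_ne_zero

theorem jL_mul_DeltaL : jL * DeltaL = (laurentExp 1 (E₄ : ℍ → ℂ)) ^ 3 := by
  have hD : DeltaL ≠ 0 := laurentExp_ne_zero one_pos isMeroCusp_discriminant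
    (fun h => discriminant_ne_zero UpperHalfPlane.I (congrFun h _))
  rw [jL, jInv_eq_div, laurentExp_div one_pos (isMeroCusp_E4.pow 3) isMeroCusp_discriminant
    discriminant_ne_zero, laurentExp_pow one_pos isMeroCusp_E4]
  exact div_mul_cancel₀ _ hD

theorem order_DeltaL : DeltaL.order = 1 := by
  rw [DeltaL_eq]
  have h0 : (qExpansion 1 (Δ : ℍ → ℂ)).coeff 0 = 0 := by
    have := CuspFormClass.qExpansion_coeff_zero (h := 1) CuspForm.discriminant one_pos
      one_mem_strictPeriods_SL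
    simpa using this
  have h1 : (qExpansion 1 (Δ : ℍ → ℂ)).coeff 1 = 1 := discriminant_qExpansion_coeff_one
  have hne : qExpansion 1 (Δ : ℍ → ℂ) ≠ 0 := by
    intro h
    rw [h] at h1
    simp at h1
  rw [order_coe_powerSeries _ hne]
  have : (qExpansion 1 (Δ : ℍ → ℂ)).order = 1 := by
    rw [show (1 : ℕ∞) = ((1 : ℕ) : ℕ∞) by rfl, PowerSeries.order_eq_nat]
    refine ⟨by rw [h1]; exact one_ne_zero, fun i hi => ?_⟩
    have : i = 0 := by omega
    rw [this]; exact h0
  rw [this]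
  rfl

theorem order_E4L : (laurentExp 1 (E₄ : ℍ → ℂ)).order = 0 := by
  rw [laurentExp_of_modularForm E₄ one_pos one_mem_strictPeriods_SL]
  have h0 : (qExpansion 1 (E₄ : ℍ → ℂ)).coeff 0 = 1 :=
    E_qExpansion_coeff_zero (by norm_num) ⟨2, rfl⟩
  have hne : qExpansion 1 (E₄ : ℍ → ℂ) ≠ 0 := by
    intro h
    rw [h] at h0
    simp at h0
  rw [order_coe_powerSeries _ hne]
  have : (qExpansion 1 (E₄ : ℍ → ℂ)).order = 0 := by
    rw [show (0 : ℕ∞) = ((0 : ℕ) : ℕ∞) by rfl, PowerSeries.order_eq_nat]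
    exact ⟨by rw [h0]; exact one_ne_zero, fun i hi => absurd hi (Nat.not_lt_zero i)⟩
  rw [this]
  rfl

theorem DeltaL_ne_zero : DeltaL ≠ 0 := by
  intro h
  have := order_DeltaL
  rw [h] at this
  simp at this

theorem order_jL : jL.order = -1 := by
  have hE : laurentExp 1 (E₄ : ℍ → ℂ) ≠ 0 :=
    laurentExp_ne_zero one_pos isMeroCusp_E4 (fun h => by
      have := E_ne_zero (k := 4) (by norm_num) ⟨2, rfl⟩
      exact this (DFunLike.coe_injective h))
  have hj : jL ≠ 0 := by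
    intro h
    have := jL_mul_DeltaL
    rw [h, zero_mul] at this
    exact pow_ne_zero 3 hE this.symm
  have h1 := congrArg HahnSeries.order jL_mul_DeltaL
  rw [HahnSeries.order_mul hj DeltaL_ne_zero, order_DeltaL, HahnSeries.order_pow, order_E4L] at h1
  simp at h1
  omega

/-- Polynomials in `j` are meromorphic at the cusp, with the expected Laurent expansion. -/
theorem isMeroCusp_poly_jInv (p : ℂ[X]) :
    IsMeroCusp 1 (fun τ => p.eval (jInv τ)) ∧
      laurentExp 1 (fun τ => p.eval (jInv τ)) =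
        p.eval₂ (HahnSeries.C : ℂ →+* ℂ⸨X⸩) jL := by
  induction p using Polynomial.induction_on with
  | C a =>
    simp only [Polynomial.eval_C, Polynomial.eval₂_C]
    exact ⟨isMeroCusp_const 1 a, laurentExp_const one_pos a⟩
  | add p q hp hq =>
    have : (fun τ => (p + q).eval (jInv τ)) =
        (fun τ => p.eval (jInv τ)) + (fun τ => q.eval (jInv τ)) := by
      funext τ; simp
    rw [this, Polynomial.eval₂_add, laurentExp_add one_pos hp.1 hq.1, hp.2, hq.2]
    exact ⟨hp.1.add one_pos hq.1, rfl⟩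
  | monomial n a h =>
    have : (fun τ => (Polynomial.C a * Polynomial.X ^ (n + 1)).eval (jInv τ)) =
        (fun τ => (Polynomial.C a * Polynomial.X ^ n).eval (jInv τ)) * jInv := by
      funext τ
      simp only [Polynomial.eval_mul, Polynomial.eval_C, Polynomial.eval_pow, Polynomial.eval_X,
        Pi.mul_apply]
      ring
    rw [this, laurentExp_mul one_pos h.1 isMeroCusp_jInv, h.2]
    refine ⟨h.1.mul isMeroCusp_jInv, ?_⟩
    simp only [Polynomial.eval₂_mul, Polynomial.eval₂_C, Polynomial.eval₂_pow, Polynomial.eval₂_X]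
    rw [pow_succ, mul_assoc]
    rfl

theorem isInt_coeff_neg {f : ℂ⸨X⸩} (hf : IsInt f) {n : ℤ} (hn : n < 0) : f.coeff n = 0 :=
  (isInt_iff f).mp hf n hn

/-- A `1`-periodic holomorphic bounded function is meromorphic at the cusp and its Laurent
expansion is its `q`-expansion. -/
theorem IsPuiseux.isMeroCusp_one {c : ℍ → ℂ} (hc : IsPuiseux 1 c) :
    IsMeroCusp 1 c ∧ laurentExp 1 c = ((qExpansion 1 c : ℂ⟦X⟧) : ℂ⸨X⸩) := by
  have hper : Periodic (c ∘ ofComplex) (1 : ℝ) := by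
    have := hc.periodic
    rwa [Nat.cast_one] at this
  exact ⟨IsMeroCusp.of_bounded hc.mdiff hper hc.bdd,
    laurentExp_of_bounded one_pos hc.mdiff hper hc.bdd⟩

theorem isMeroCusp_dpow_inv (n : ℕ) :
    IsMeroCusp 1 (fun τ => ((Δ τ) ^ n)⁻¹) ∧
      laurentExp 1 (fun τ => ((Δ τ) ^ n)⁻¹) = DeltaL⁻¹ ^ n := by
  have h1 : IsMeroCusp 1 ((Δ : ℍ → ℂ) ^ n) := isMeroCusp_discriminant.pow n
  have hne : ∀ τ, ((Δ : ℍ → ℂ) ^ n) τ ≠ 0 := fun τ => pow_ne_zero n (discriminant_ne_zero τ)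
  have h2 : (fun τ => ((Δ τ) ^ n)⁻¹) = ((Δ : ℍ → ℂ) ^ n)⁻¹ := by
    funext τ; simp
  rw [h2]
  refine ⟨h1.inv one_pos hne, ?_⟩
  rw [laurentExp_inv one_pos h1 hne, laurentExp_pow one_pos isMeroCusp_discriminant, inv_pow]
  rfl

theorem isBoundedAtImInfty_finset_sum {ι : Type*} (s : Finset ι) (f : ι → ℍ → ℂ)
    (h : ∀ i ∈ s, IsBoundedAtImInfty (f i)) :
    IsBoundedAtImInfty (fun τ => ∑ i ∈ s, f i τ) := by
  classical
  induction s using Finset.induction_on with
  | empty =>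
    simp only [Finset.sum_empty]
    exact Filter.const_boundedAtFilter _ (0 : ℂ)
  | insert a s ha ih =>
    have h1 : IsBoundedAtImInfty (f a) := h a (Finset.mem_insert_self a s)
    have h2 := ih fun i hi => h i (Finset.mem_insert_of_mem hi)
    have : (fun τ => ∑ i ∈ insert a s, f i τ) = f a + fun τ => ∑ i ∈ s, f i τ := by
      funext τ
      rw [Finset.sum_insert ha]
      rfl
    rw [this]
    exact h1.add h2

/-- The `i`-th component function of `∑ a, (p a)(j) * g a / Δ ^ n`. -/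
noncomputable def compSum {ι : Type*} [Fintype ι] (e i n : ℕ) (g : ι → ℍ → ℂ) (p : ι → ℂ[X]) :
    ℍ → ℂ :=
  (fun τ => ((Δ τ) ^ n)⁻¹) * ∑ a, ((fun τ => (p a).eval (jInv τ)) * compFun e i (g a))

theorem compSum_apply {ι : Type*} [Fintype ι] (e i n : ℕ) (g : ι → ℍ → ℂ) (p : ι → ℂ[X])
    (τ : ℍ) :
    compSum e i n g p τ = ((Δ τ) ^ n)⁻¹ * ∑ a, (p a).eval (jInv τ) * compFun e i (g a) τ := by
  simp [compSum, Finset.sum_apply]

theorem isMeroCusp_compSum {ι : Type*} [Fintype ι] {e : ℕ} (he : 0 < e) (i n : ℕ)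
    (g : ι → ℍ → ℂ) (hg : ∀ a, IsPuiseux e (g a)) (p : ι → ℂ[X]) :
    IsMeroCusp 1 (compSum e i n g p) ∧
      laurentExp 1 (compSum e i n g p) =
        DeltaL⁻¹ ^ n * ∑ a, (p a).eval₂ (HahnSeries.C : ℂ →+* ℂ⸨X⸩) jL *
          ((comp e i (g a) : ℂ⟦X⟧) : ℂ⸨X⸩) := by
  have hterm : ∀ a ∈ (Finset.univ : Finset ι),
      IsMeroCusp 1 ((fun τ => (p a).eval (jInv τ)) * compFun e i (g a)) := fun a _ =>
    (isMeroCusp_poly_jInv (p a)).1.mul (IsPuiseux.isMeroCusp_one (isPuiseux_compFun he (hg a) i)).1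
  have hsum := IsMeroCusp.sum one_pos Finset.univ hterm
  refine ⟨(isMeroCusp_dpow_inv n).1.mul hsum, ?_⟩
  rw [compSum, laurentExp_mul one_pos (isMeroCusp_dpow_inv n).1 hsum, (isMeroCusp_dpow_inv n).2,
    laurentExp_sum one_pos Finset.univ hterm]
  congr 1
  refine Finset.sum_congr rfl fun a _ => ?_
  rw [laurentExp_mul one_pos (isMeroCusp_poly_jInv (p a)).1
    (IsPuiseux.isMeroCusp_one (isPuiseux_compFun he (hg a) i)).1, (isMeroCusp_poly_jInv (p a)).2,
    (IsPuiseux.isMeroCusp_one (isPuiseux_compFun he (hg a) i)).2, qExpansion_compFun he (hg a) i]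

/-- **Boundedness at the cusp from integrality.** -/
theorem isBoundedAtImInfty_of_isInt {ι : Type*} [Fintype ι] {e : ℕ} (he : 0 < e)
    (g : ι → ℍ → ℂ) (hg : ∀ a, IsPuiseux e (g a)) (n : ℕ) (p : ι → ℂ[X])
    (hint : ∀ i < e, IsInt (DeltaL⁻¹ ^ n * ∑ a, (p a).eval₂ (HahnSeries.C : ℂ →+* ℂ⸨X⸩) jL *
      ((comp e i (g a) : ℂ⟦X⟧) : ℂ⸨X⸩))) :
    IsBoundedAtImInfty (fun τ => ∑ a, (p a).eval (jInv τ) * (g a τ / (Δ τ) ^ n)) := by
  have hb : ∀ i ∈ Finset.range e, IsBoundedAtImInfty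
      (fun τ : ℍ => 𝕢 (e : ℝ) τ ^ i * compSum e i n g p τ) := by
    intro i hi
    have hi' : i < e := Finset.mem_range.mp hi
    obtain ⟨hm, hl⟩ := isMeroCusp_compSum he i n g hg p
    have h1 : IsBoundedAtImInfty (compSum e i n g p) :=
      hm.isBoundedAtImInfty_of_coeff one_pos fun m hm0 => by
        rw [hl]; exact isInt_coeff_neg (hint i hi') hm0
    have h2 : IsBoundedAtImInfty (qPow (e : ℝ) i) :=
      isBoundedAtImInfty_qPow (by exact_mod_cast he) i
    exact h2.mul h1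
  have hsum := isBoundedAtImInfty_finset_sum (Finset.range e) _ hb
  have heq : (fun τ => ∑ a, (p a).eval (jInv τ) * (g a τ / (Δ τ) ^ n)) =
      fun τ : ℍ => ∑ i ∈ Finset.range e, 𝕢 (e : ℝ) τ ^ i * compSum e i n g p τ := by
    funext τ
    have hg0 : ∀ a, g a τ = ∑ i ∈ Finset.range e, 𝕢 (e : ℝ) τ ^ i * compFun e i (g a) τ := by
      intro a
      have := translate_eq he (hg a) 0 τ
      simp only [Int.cast_zero, zero_vadd, zero_mul, zpow_zero, one_mul] at this
      exact this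
    simp only [compSum_apply]
    simp_rw [hg0, Finset.mul_sum, Finset.sum_div, Finset.mul_sum]
    rw [Finset.sum_comm]
    refine Finset.sum_congr rfl fun i _ => Finset.sum_congr rfl fun a _ => ?_
    rw [div_eq_mul_inv]
    ring
  rw [heq]
  exact hsum

end Fermat.Agent.S20_helper83
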