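import Fermat.Agent.S20.CuspKernel
import Fermat.Agent.S20_helper11.CuspWidth
import Fermat.Agent.S20_helper83.CuspBound

/-!
# The analytic hypothesis `hexp` of T20/C3 for the cusp matrix

For a weakly holomorphic tuple `F` on `Γ₀(N)` (`IsWH N k n (F c)`), the cusp matrix has rows
indexed by pairs `(s, i)` (`s` a cusp, `i < cuspWidth s`) and entries
`DeltaL⁻¹ ^ n * comp (cuspWidth s) i (cj (k + 12 n) (Δ^n F c) (cuspRep s))`.  If the product of this
matrix with the vector `(a c)(jL)` is integral, then all conjugates of `∑ c, (a c)(j) F c` are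
bounded at `i∞`.
-/

set_option autoImplicit false

namespace Fermat.Agent.S20_helper83

open UpperHalfPlane Filter Topology Function ModularForm CongruenceSubgroup
open Matrix.SpecialLinearGroup ModularGroup
open scoped Manifold LaurentSeries PowerSeries Polynomial MatrixGroups
open Fermat.Agent.S20 Fermat.Agent.S20.Puiseux Fermat.Agent.S20_helper11
open Fermat.Agent.S23 (G0 IsMF IsCF)
open Fermat.Agent.LevelOne_helper29 (jInv)

local notation "Δ" => ModularForm.discriminant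

theorem denom_T_zpow_eq_one (t : ℤ) (τ : ℍ) :
    denom (ModularGroup.T ^ t : SL(2, ℤ)) τ = 1 := by
  rw [ModularGroup.denom_apply, ModularGroup.coe_T_zpow]
  simp

/-- Slashing by a power of `T` preserves boundedness at `i∞`. -/
theorem isBoundedAtImInfty_slash_T_zpow {k : ℤ} {φ : ℍ → ℂ} (h : IsBoundedAtImInfty φ) (m : ℤ) :
    IsBoundedAtImInfty (φ ∣[k] (T ^ m : SL(2, ℤ))) := by
  rw [isBoundedAtImInfty_iff] at h ⊢
  obtain ⟨M, A, hMA⟩ := h
  refine ⟨M, A, fun z hz => ?_⟩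
  rw [SL_slash_apply]
  have hden : denom (T ^ m : SL(2, ℤ)) z = 1 := denom_T_zpow_eq_one m z
  rw [hden, one_zpow, mul_one]
  apply hMA
  rw [ModularGroup.im_T_zpow_smul]
  exact hz

variable {N : ℕ} [NeZero N]

/-- The holomorphic conjugate of `f` at the cusp `s`. -/
noncomputable def cuspFun' (k : ℤ) (n : ℕ) (f : ℍ → ℂ) (s : Cusps N) : ℍ → ℂ :=
  cj (k + 12 * n) (dpow n * f) (cuspRep s)

omit [NeZero N] in
theorem cuspFun'_eq (k : ℤ) (n : ℕ) (f : ℍ → ℂ) (s : Cusps N) :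
    cuspFun' k n f s = dpow n * cj k f (cuspRep s) := by
  unfold cuspFun'
  rw [add_comm k, cj_mul, cj_dpow]

theorem isPuiseux_cuspFun' {k : ℤ} {n : ℕ} {f : ℍ → ℂ} (hf : IsWH N k n f) (s : Cusps N) :
    IsPuiseux (cuspWidth s) (cuspFun' k n f s) where
  mdiff := mdiff_cj (IsMF.mdiff hf) _
  bdd := by
    unfold cuspFun' cj
    exact hf.isBoundedAtImInfty_slash _
  per := by
    intro z
    have hinv : ∀ γ ∈ Gamma0 N, (dpow n * f) ∣[k + 12 * n] γ = dpow n * f := fun γ hγ =>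
      IsMF.slash_eq_SL hf hγ
    have h1 := cj_apply_smul hinv (cuspRep s) (T ^ (cuspWidth s : ℤ)) z
    have hden : denom (T ^ (cuspWidth s : ℤ) : SL(2, ℤ)) z = 1 := denom_T_zpow_eq_one _ z
    rw [hden, one_zpow, one_mul, modular_T_zpow_smul] at h1
    have h2 : (T ^ (cuspWidth s : ℤ))⁻¹ • cuspRep s = cuspRep s := by
      rw [inv_smul_eq_iff, zpow_natCast]
      exact (T_pow_width_smul (cuspRep s)).symm
    rw [h2] at h1
    unfold cuspFun'
    simpa using h1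

omit [NeZero N] in
/-- Every point of `X_N` is a `T`-translate of a cusp representative. -/
theorem exists_T_zpow_smul_cuspRep (x : X N) : ∃ (s : Cusps N) (m : ℤ), x = T ^ m • cuspRep s := by
  refine ⟨Quotient.mk'' x, ?_⟩
  have h : (Quotient.mk'' (cuspRep (Quotient.mk'' x : Cusps N)) : Cusps N) = Quotient.mk'' x :=
    mk_cuspRep _
  have h2 := Quotient.exact' h
  -- `h2 : cuspRep _ ∈ orbit of x`
  obtain ⟨⟨t, ⟨m, rfl⟩⟩, ht⟩ := h2
  refine ⟨-m, ?_⟩
  have : T ^ m • x = cuspRep (Quotient.mk'' x : Cusps N) := ht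
  rw [← this, ← mul_smul, ← zpow_add]
  simp

/-- **The hypothesis `hexp` of C3 for the cusp matrix.** -/
theorem bounded_cj_combo {k : ℤ} {n : ℕ} {F : X N → ℍ → ℂ} (hF : ∀ c, IsWH N k n (F c))
    (a : X N → ℂ[X])
    (hint : ∀ (s : Cusps N) (i : ℕ), i < cuspWidth s →
      IsInt (DeltaL⁻¹ ^ n * ∑ c, (a c).eval₂ (HahnSeries.C : ℂ →+* ℂ⸨X⸩) jL *
        ((comp (cuspWidth s) i (cuspFun' k n (F c) s) : ℂ⟦X⟧) : ℂ⸨X⸩)))
    (x : X N) : IsBoundedAtImInfty (cj k (combo F a) x) := by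
  obtain ⟨n', hn'⟩ := exists_isWH_combo hF a
  have hinv : ∀ γ ∈ Gamma0 N, combo F a ∣[k] γ = combo F a := fun γ hγ => hn'.slash_eq hγ
  obtain ⟨s, m, rfl⟩ := exists_T_zpow_smul_cuspRep x
  -- reduce to the cusp representative
  have hsl : cj k (combo F a) (T ^ m • cuspRep s) =
      (cj k (combo F a) (cuspRep s)) ∣[k] (T ^ (-m) : SL(2, ℤ)) := by
    rw [cj_slash hinv, zpow_neg, inv_inv]
  rw [hsl]
  apply isBoundedAtImInfty_slash_T_zpow
  -- boundedness at the representative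
  have hb := isBoundedAtImInfty_of_isInt (cuspWidth_pos s)
    (fun c => cuspFun' k n (F c) s) (fun c => isPuiseux_cuspFun' (hF c) s) n a (hint s)
  have heq : cj k (combo F a) (cuspRep s) =
      fun τ => ∑ c, (a c).eval (jInv τ) * (cuspFun' k n (F c) s τ / (Δ τ) ^ n) := by
    rw [cj_combo]
    funext τ
    simp only [Finset.sum_apply, Pi.mul_apply, polyJ_apply]
    refine Finset.sum_congr rfl fun c _ => ?_
    rw [cuspFun'_eq]
    simp only [Pi.mul_apply, dpow_apply]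
    rw [mul_div_cancel_left₀ _ (pow_ne_zero n (discriminant_ne_zero τ))]
  rw [heq]
  exact hb

/-- **`hexp` in the coefficient form of `S20/Glue.lean: HasCuspMatrix`**, for ANY square matrix `G`
whose rows, transported along helper11's `cuspSigmaEquiv`, are the cusp rows
`DeltaL⁻¹ ^ n * comp (cuspWidth s) i (cuspFun' k n (F c) s)`; with `ξ := jL`. -/
theorem hexp_of_rows {k : ℤ} {n : ℕ} {F : X N → ℍ → ℂ} (hF : ∀ c, IsWH N k n (F c))
    (G : Matrix (X N) (X N) ℂ⸨X⸩)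
    (hG : ∀ (s : Cusps N) (i : Fin (cuspWidth s)) (c : X N), G (cuspSigmaEquiv N ⟨s, i⟩) c =
      DeltaL⁻¹ ^ n * ((comp (cuspWidth s) i (cuspFun' k n (F c) s) : ℂ⟦X⟧) : ℂ⸨X⸩))
    (a : X N → ℂ[X])
    (h : ∀ r, ∀ m : ℤ, m < 0 →
      (∑ c, G r c * Polynomial.eval₂ (HahnSeries.C : ℂ →+* ℂ⸨X⸩) jL (a c)).coeff m = 0)
    (x : X N) : IsBoundedAtImInfty (cj k (combo F a) x) := by
  refine bounded_cj_combo hF a (fun s i hi => ?_) x
  rw [isInt_iff]
  intro m hm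
  have h1 := h (cuspSigmaEquiv N ⟨s, ⟨i, hi⟩⟩) m hm
  have h2 : ∑ c, G (cuspSigmaEquiv N ⟨s, ⟨i, hi⟩⟩) c *
      Polynomial.eval₂ (HahnSeries.C : ℂ →+* ℂ⸨X⸩) jL (a c) =
      DeltaL⁻¹ ^ n * ∑ c, (a c).eval₂ (HahnSeries.C : ℂ →+* ℂ⸨X⸩) jL *
        ((comp (cuspWidth s) i (cuspFun' k n (F c) s) : ℂ⟦X⟧) : ℂ⸨X⸩) := by
    rw [Finset.mul_sum]
    refine Finset.sum_congr rfl fun c _ => ?_
    rw [hG]
    ring
  rw [← h2]
  exact h1

/-- The square cusp matrix (rows indexed by `X N` through `cuspSigmaEquiv`). -/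
noncomputable def cuspMat (k : ℤ) (n : ℕ) (F : X N → ℍ → ℂ) : Matrix (X N) (X N) ℂ⸨X⸩ :=
  Matrix.of fun r c => DeltaL⁻¹ ^ n *
    ((comp (cuspWidth ((cuspSigmaEquiv N).symm r).1) ((cuspSigmaEquiv N).symm r).2
      (cuspFun' k n (F c) ((cuspSigmaEquiv N).symm r).1) : ℂ⟦X⟧) : ℂ⸨X⸩)

theorem cuspMat_apply (k : ℤ) (n : ℕ) (F : X N → ℍ → ℂ) (s : Cusps N) (i : Fin (cuspWidth s))
    (c : X N) : cuspMat k n F (cuspSigmaEquiv N ⟨s, i⟩) c =
      DeltaL⁻¹ ^ n * ((comp (cuspWidth s) i (cuspFun' k n (F c) s) : ℂ⟦X⟧) : ℂ⸨X⸩) := by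
  unfold cuspMat
  rw [Matrix.of_apply, Equiv.symm_apply_apply]

/-- The `hexp` clause of `HasCuspMatrix` for `G := cuspMat k n F`, `ξ := jL` (`jL.order = -1` is
`order_jL`). -/
theorem hexp_cuspMat {k : ℤ} {n : ℕ} {F : X N → ℍ → ℂ} (hF : ∀ c, IsWH N k n (F c))
    (a : X N → ℂ[X])
    (h : ∀ r, ∀ m : ℤ, m < 0 →
      (∑ c, cuspMat k n F r c * Polynomial.eval₂ (HahnSeries.C : ℂ →+* ℂ⸨X⸩) jL (a c)).coeff m = 0)
    (x : X N) : IsBoundedAtImInfty (cj k (combo F a) x) :=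
  hexp_of_rows hF (cuspMat k n F) (cuspMat_apply k n F) a h x

end Fermat.Agent.S20_helper83
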