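import Fermat.Agent.S20.Glue
import Fermat.Agent.S20.CuspMatrixDefs
import Fermat.Agent.S20_helper83.CuspExp

/-!
# Plugging the boundedness clause into `HasCuspMatrix`

`HasCuspMatrix N` (from `S20/Glue.lean`) follows from the determinant/order statement for helper1's
square cusp matrix `cuspGsq k n F` alone: the boundedness clause is `hexp_of_rows` with `ξ := jL`.
-/

set_option autoImplicit false

namespace Fermat.Agent.S20_helper83

open UpperHalfPlane Filter Topology Function ModularForm CongruenceSubgroup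
open Matrix.SpecialLinearGroup ModularGroup
open scoped Manifold LaurentSeries PowerSeries Polynomial MatrixGroups
open Fermat.Agent.S20 Fermat.Agent.S20.Puiseux Fermat.Agent.S20_helper11

local notation "Δ" => ModularForm.discriminant

variable {N : ℕ} [NeZero N]

theorem deltaL_eq_DeltaL : Fermat.Agent.S20.deltaL = DeltaL := DeltaL_eq.symm

/-- the boundedness clause of `HasCuspMatrix` for helper1's `cuspGsq`, with `ξ := jL` -/
theorem hexp_cuspGsq {k : ℤ} {n : ℕ} {F : X N → ℍ → ℂ} (hF : ∀ c, IsWH N k n (F c))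
    (a : X N → ℂ[X])
    (h : ∀ r, ∀ m : ℤ, m < 0 →
      (∑ c, cuspGsq k n F r c * Polynomial.eval₂ (HahnSeries.C : ℂ →+* ℂ⸨X⸩) jL (a c)).coeff m = 0)
    (x : X N) : IsBoundedAtImInfty (cj k (combo F a) x) := by
  refine hexp_of_rows hF (cuspGsq k n F) (fun s i c => ?_) a h x
  rw [cuspGsq_apply_equiv, cuspG_apply, deltaL_eq_DeltaL]
  rfl

open Classical in
/-- **`HasCuspMatrix N` from the determinant/order statement for `cuspGsq`.** -/
theorem hasCuspMatrix_of_order
    (hord : ∀ {k : ℤ} {n : ℕ} {F : X N → ℍ → ℂ}, (∀ c, IsWH N k n (F c)) →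
      ∀ {α β : ℕ} {γ : ℤ} {C : ℂ}, C ≠ 0 →
        (∀ z : ℍ, detFun k F z ^ 2 = C * E₄ z ^ α * E₆ z ^ β * Δ z ^ γ) →
        (cuspGsq k n F).det ≠ 0 ∧
          2 * (cuspGsq k n F).det.order + ((mu N : ℤ) - nuInf N) = γ) :
    HasCuspMatrix N := by
  intro k n F hF α β γ C hC hshape
  obtain ⟨hdet, ho⟩ := hord hF hC hshape
  exact ⟨jL, cuspGsq k n F, order_jL, hdet, fun a h x => hexp_cuspGsq hF a h x, ho⟩

end Fermat.Agent.S20_helper83
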