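import Fermat.Agent.S20.Glue
import Fermat.Agent.S20.CuspMatrixDefs
import Fermat.Agent.S20_helper11.CuspDFT
import Fermat.Agent.S20_helper29.OrderShape
import Fermat.Agent.S20_helper83.CuspPlug

/-!
# The determinant of the cusp matrix (hedge of T20/C2b (Q)) and `HasCuspMatrix N`

`Δ^(n μ) · detFun k F = b · (∏_r q_{e_r}^{i_r}) · det (component functions)`, hence
`qExpansion (Δ^(2 n μ) detFun²) = b² • X^(μ - ν∞) * (det P)²`, and the order relation.
-/

set_option autoImplicit false

namespace Fermat.Agent.S20_helper83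

open UpperHalfPlane Filter Topology Function ModularForm CongruenceSubgroup
open Matrix.SpecialLinearGroup ModularGroup
open scoped Manifold LaurentSeries PowerSeries Polynomial MatrixGroups
open Fermat.Agent.S20 Fermat.Agent.S20.Puiseux Fermat.Agent.S20_helper11
open Fermat.Agent.S20_helper29 (order_det_of_shape scaledMatrix deltaLaurent)
open Classical

local notation "Δ" => ModularForm.discriminant
local notation "𝕢" => Function.Periodic.qParam

variable {N : ℕ} [NeZero N] {k : ℤ} {n : ℕ}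

theorem zetaE_eq_zetaW (e : ℕ) : zetaE e = zetaW e := rfl

/-- the matrix of component functions, rows indexed by `X N` through `cuspSigmaEquiv` -/
noncomputable def compMat (k : ℤ) (n : ℕ) (F : X N → ℍ → ℂ) : Matrix (X N) (X N) (ℍ → ℂ) :=
  fun x a => compFun (cuspWidth ((cuspSigmaEquiv N).symm x).1) ((cuspSigmaEquiv N).symm x).2
    (cuspFun k n (F a) ((cuspSigmaEquiv N).symm x).1)

/-- the power-series cusp matrix, rows indexed by `X N` through `cuspSigmaEquiv` -/
noncomputable def cuspPsq (k : ℤ) (n : ℕ) (F : X N → ℍ → ℂ) : Matrix (X N) (X N) ℂ⟦X⟧ :=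
  Matrix.of fun x a => comp (cuspWidth ((cuspSigmaEquiv N).symm x).1) ((cuspSigmaEquiv N).symm x).2
    (cuspFun k n (F a) ((cuspSigmaEquiv N).symm x).1)

theorem isPuiseux_compMat {F : X N → ℍ → ℂ} (hF : ∀ a, IsWH N k n (F a)) (x a : X N) :
    IsPuiseux 1 (compMat k n F x a) :=
  isPuiseux_compFun (cuspWidth_pos _) (isPuiseux_cuspFun (hF a) _) _

theorem qExpansion_det_compMat {F : X N → ℍ → ℂ} (hF : ∀ a, IsWH N k n (F a)) :
    qExpansion (1 : ℝ) (compMat k n F).det = (cuspPsq k n F).det :=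
  qExpansion_det_compFun (e := fun x : X N => cuspWidth ((cuspSigmaEquiv N).symm x).1)
    (fun _ => cuspWidth_pos _) (fun x => (((cuspSigmaEquiv N).symm x).2 : ℕ))
    (fun x a => cuspFun k n (F a) ((cuspSigmaEquiv N).symm x).1)
    (fun _ a => isPuiseux_cuspFun (hF a) _)

/-- the monomial weights of the rows -/
noncomputable def rowWeight (z : ℍ) (x : X N) : ℂ :=
  𝕢 (cuspWidth ((cuspSigmaEquiv N).symm x).1 : ℝ) z ^ (((cuspSigmaEquiv N).symm x).2 : ℕ)

/-- pointwise factorisation of the conjugate determinant -/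
theorem dpow_mul_detFun_eq {F : X N → ℍ → ℂ} (hF : ∀ a, IsWH N k n (F a)) (z : ℍ) :
    Δ z ^ (n * mu N) * detFun k F z =
      cuspDftConst N * ((∏ x : X N, rowWeight z x) * (compMat k n F).det z) := by
  have h1 := cusp_det_eq N (Δ z ^ n • conjMat k F z) (cuspC k n F z) (fun a s m => by
    rw [← cuspSigmaEquiv_apply, Matrix.smul_apply, smul_eq_mul, dpow_mul_conjMat_apply hF z a s m]
    refine Finset.sum_congr rfl fun i _ => ?_
    rw [zetaE_eq_zetaW]
    push_cast
    rfl)
  rw [Matrix.det_smul, ← mu_eq_card, ← pow_mul] at h1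
  unfold detFun
  rw [h1]
  congr 1
  have h2 : Matrix.reindex (Equiv.refl (X N)) (cuspSigmaEquiv N) (cuspC k n F z) =
      Matrix.of fun a x => rowWeight z x *
        Matrix.transpose (Matrix.of fun x a => compMat k n F x a z) a x := by
    ext a x
    simp only [Matrix.reindex_apply, Matrix.submatrix_apply, Equiv.refl_symm, Equiv.refl_apply,
      Matrix.of_apply, Matrix.transpose_apply, cuspC, rowWeight, compMat]
  rw [h2, Matrix.det_mul_row, Matrix.det_transpose, ← det_apply]

/-- the product of the squared row weights is `q ^ (μ - ν∞)` -/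
theorem prod_rowWeight_sq (z : ℍ) :
    (∏ x : X N, rowWeight z x) ^ 2 =
      𝕢 (1 : ℝ) z ^ (ModularCurve.dedekindPsi N - ModularCurve.cuspCount N) := by
  rw [← prod_qParam_cusps N (z : ℂ), ← Finset.prod_pow]
  rw [← Equiv.prod_comp (cuspSigmaEquiv N).symm]
  refine Finset.prod_congr rfl fun x _ => ?_
  simp only [rowWeight]
  rw [← pow_mul, mul_comm]

/-- function-level form of the squared factorisation -/
theorem dpow_mul_detFun_sq_eq {F : X N → ℍ → ℂ} (hF : ∀ a, IsWH N k n (F a)) :
    dpow (2 * (n * Fintype.card (X N))) * (fun z => detFun k F z ^ 2) =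
      (cuspDftConst N ^ 2) • (qFun ^ (ModularCurve.dedekindPsi N - ModularCurve.cuspCount N) *
        (compMat k n F).det ^ 2) := by
  funext z
  have h := dpow_mul_detFun_eq hF z
  rw [mu_eq_card] at h
  simp only [Pi.mul_apply, Pi.smul_apply, Pi.pow_apply, dpow_apply, smul_eq_mul, qFun]
  rw [← prod_rowWeight_sq z]
  calc Δ z ^ (2 * (n * Fintype.card (X N))) * detFun k F z ^ 2
      = (Δ z ^ (n * Fintype.card (X N)) * detFun k F z) ^ 2 := by ring
    _ = _ := by rw [h]; ring

theorem qExpansion_dpow_mul_detFun_sq {F : X N → ℍ → ℂ} (hF : ∀ a, IsWH N k n (F a)) :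
    qExpansion (1 : ℝ) (dpow (2 * (n * Fintype.card (X N))) * (fun z => detFun k F z ^ 2)) =
      (cuspDftConst N ^ 2) •
        (PowerSeries.X ^ (ModularCurve.dedekindPsi N - ModularCurve.cuspCount N) *
          (cuspPsq k n F).det ^ 2) := by
  rw [dpow_mul_detFun_sq_eq hF]
  have hdet : IsPuiseux 1 (compMat k n F).det := isPuiseux_det _ (isPuiseux_compMat hF)
  set E := ModularCurve.dedekindPsi N - ModularCurve.cuspCount N
  have hprod : IsPuiseux 1 (qFun ^ E * (compMat k n F).det ^ 2) :=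
    (isPuiseux_qFun.pow E).mul (hdet.pow 2)
  rw [qExpansion_smul hprod.analyticAt_one]
  congr 1
  have h1 : qExpansion (1 : ℝ) (qFun ^ E * (compMat k n F).det ^ 2) =
      qExpHom ((⟨qFun, isPuiseux_qFun⟩ : puiseuxSubring) ^ E *
        (⟨(compMat k n F).det, hdet⟩ : puiseuxSubring) ^ 2) := rfl
  rw [h1, map_mul, map_pow, map_pow, qExpHom_apply, qExpHom_apply, qExpansion_qFun,
    qExpansion_det_compMat hF]

theorem scaledMatrix_cuspPsq (F : X N → ℍ → ℂ) :
    scaledMatrix (cuspPsq k n F) n = cuspGsq k n F := by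
  ext x a
  rfl

theorem cuspCount_le_dedekindPsi (N : ℕ) [NeZero N] :
    ModularCurve.cuspCount N ≤ ModularCurve.dedekindPsi N := by
  have := sum_cuspWidth_sub_one_add_cuspCount N
  omega

/-- **(Q) + order relation** for helper1's `cuspGsq`. -/
theorem order_det_cuspGsq {F : X N → ℍ → ℂ} (hF : ∀ a, IsWH N k n (F a))
    {α β : ℕ} {γ : ℤ} {C : ℂ} (hC : C ≠ 0)
    (hshape : ∀ z : ℍ, detFun k F z ^ 2 = C * E₄ z ^ α * E₆ z ^ β * Δ z ^ γ) :
    (cuspGsq k n F).det ≠ 0 ∧
      2 * (cuspGsq k n F).det.order + ((mu N : ℤ) - nuInf N) = γ := by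
  have hbd : IsBoundedAtImInfty
      (dpow (2 * (n * Fintype.card (X N))) * (fun z => detFun k F z ^ 2)) := by
    rw [dpow_mul_detFun_sq_eq hF]
    have hdet : IsPuiseux 1 (compMat k n F).det := isPuiseux_det _ (isPuiseux_compMat hF)
    exact (((isPuiseux_qFun.pow _).mul (hdet.pow 2)).smul _).bdd
  have h := order_det_of_shape (cuspPsq k n F) n (D := fun z => detFun k F z ^ 2) hC hbd hshape
    (qExpansion_dpow_mul_detFun_sq hF)
  rw [scaledMatrix_cuspPsq] at h
  refine ⟨h.1, ?_⟩
  rw [mu_eq_dedekindPsi, nuInf_eq_cuspCount, ← Nat.cast_sub (cuspCount_le_dedekindPsi N)]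
  exact h.2

/-- **C2: `HasCuspMatrix N`** (hedge; helper1 owns the official `Fermat.Agent.S20.hasCuspMatrix`). -/
theorem hasCuspMatrix' (N : ℕ) [NeZero N] : HasCuspMatrix N :=
  hasCuspMatrix_of_order fun hF _ _ _ _ hC hshape => order_det_cuspGsq hF hC hshape

end Fermat.Agent.S20_helper83
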