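import Mathlib

/-!
# Index additivity for pairs of subspaces

For subspaces `L`, `Λ ≤ Λ'` of a `k`-vector space `V` with `Λ' / Λ` finite-dimensional,
`H⁰(L, Λ) = L ⊓ Λ` and `H¹(L, Λ) = V ⧸ (L ⊔ Λ)` are finite-dimensional for `Λ` iff they are for
`Λ'`, and `χ(L, Λ') = χ(L, Λ) + dim (Λ' / Λ)`.
-/

set_option autoImplicit false

namespace Fermat.Agent.S20_helper83

open Module

section General

variable {k : Type*} [Field k] {M N : Type*} [AddCommGroup M] [Module k M]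
  [AddCommGroup N] [Module k N]

theorem fd_iff_ker_range (f : M →ₗ[k] N) :
    FiniteDimensional k M ↔
      FiniteDimensional k (LinearMap.ker f) ∧ FiniteDimensional k (LinearMap.range f) := by
  constructor
  · intro h
    exact ⟨inferInstance, inferInstance⟩
  · rintro ⟨h1, h2⟩
    have : Module.Finite k (M ⧸ LinearMap.ker f) :=
      Module.Finite.equiv f.quotKerEquivRange.symm
    exact Module.Finite.of_submodule_quotient (LinearMap.ker f)

end General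

section Step

variable {k : Type*} [Field k] {V : Type*} [AddCommGroup V] [Module k V]
variable (L Λ Λ' : Submodule k V)

/-- The connecting map `L ⊓ Λ' → Λ' / Λ`. -/
noncomputable def stepPhi : ↥(L ⊓ Λ') →ₗ[k] (↥Λ' ⧸ Λ.submoduleOf Λ') :=
  (Λ.submoduleOf Λ').mkQ ∘ₗ Submodule.inclusion (inf_le_right : L ⊓ Λ' ≤ Λ')

/-- The connecting map `Λ' / Λ → V / (L + Λ)`. -/
noncomputable def stepPsi : (↥Λ' ⧸ Λ.submoduleOf Λ') →ₗ[k] (V ⧸ (L ⊔ Λ)) :=
  (Λ.submoduleOf Λ').liftQ ((L ⊔ Λ).mkQ ∘ₗ Λ'.subtype) (by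
    intro x hx
    rw [LinearMap.mem_ker, LinearMap.comp_apply, Submodule.mkQ_apply,
      Submodule.Quotient.mk_eq_zero]
    exact Submodule.mem_sup_right hx)

/-- The projection `V / (L + Λ) → V / (L + Λ')`. -/
noncomputable def stepRho (h : Λ ≤ Λ') : (V ⧸ (L ⊔ Λ)) →ₗ[k] (V ⧸ (L ⊔ Λ')) :=
  Submodule.mapQ (L ⊔ Λ) (L ⊔ Λ') LinearMap.id (by
    rw [Submodule.comap_id]
    exact sup_le_sup_left h L)

theorem stepRho_surjective (h : Λ ≤ Λ') : Function.Surjective (stepRho L Λ Λ' h) := by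
  intro y
  obtain ⟨v, rfl⟩ := Submodule.Quotient.mk_surjective _ y
  exact ⟨Submodule.Quotient.mk v, rfl⟩

/-- `ker φ ≃ L ⊓ Λ`. -/
noncomputable def kerPhiEquiv (h : Λ ≤ Λ') :
    ↥(LinearMap.ker (stepPhi L Λ Λ')) ≃ₗ[k] ↥(L ⊓ Λ) where
  toFun x := ⟨x.1.1, by
    have hx := x.2
    unfold stepPhi at hx
    rw [LinearMap.mem_ker, LinearMap.comp_apply, Submodule.mkQ_apply,
      Submodule.Quotient.mk_eq_zero] at hx
    exact ⟨(Submodule.mem_inf.mp x.1.2).1, hx⟩⟩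
  map_add' _ _ := rfl
  map_smul' _ _ := rfl
  invFun y := ⟨⟨y.1, ⟨(Submodule.mem_inf.mp y.2).1, h (Submodule.mem_inf.mp y.2).2⟩⟩, by
    unfold stepPhi
    rw [LinearMap.mem_ker, LinearMap.comp_apply, Submodule.mkQ_apply,
      Submodule.Quotient.mk_eq_zero]
    exact (Submodule.mem_inf.mp y.2).2⟩
  left_inv _ := rfl
  right_inv _ := rfl

theorem range_stepPhi_eq_ker_stepPsi (h : Λ ≤ Λ') :
    LinearMap.range (stepPhi L Λ Λ') = LinearMap.ker (stepPsi L Λ Λ') := by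
  ext y
  obtain ⟨⟨w, hw⟩, rfl⟩ := Submodule.Quotient.mk_surjective _ y
  rw [LinearMap.mem_ker]
  constructor
  · rintro ⟨⟨x, hx⟩, hxy⟩
    rw [← hxy]
    simp only [stepPhi, stepPsi, LinearMap.comp_apply, Submodule.mkQ_apply,
      Submodule.liftQ_apply, Submodule.coe_subtype, Submodule.coe_inclusion]
    rw [Submodule.Quotient.mk_eq_zero]
    exact Submodule.mem_sup_left (Submodule.mem_inf.mp hx).1
  · intro hy
    simp only [stepPsi, Submodule.liftQ_apply, LinearMap.comp_apply, Submodule.coe_subtype,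
      Submodule.mkQ_apply] at hy
    rw [Submodule.Quotient.mk_eq_zero, Submodule.mem_sup] at hy
    obtain ⟨l, hl, m, hm, hlm⟩ := hy
    have hlΛ' : l ∈ Λ' := by
      have : l = w - m := by rw [← hlm]; abel
      rw [this]
      exact Λ'.sub_mem hw (h hm)
    refine ⟨⟨l, Submodule.mem_inf.mpr ⟨hl, hlΛ'⟩⟩, ?_⟩
    simp only [stepPhi, LinearMap.comp_apply, Submodule.mkQ_apply]
    rw [Submodule.Quotient.eq]
    change (⟨l, hlΛ'⟩ - ⟨w, hw⟩ : ↥Λ').1 ∈ Λ
    change l - w ∈ Λ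
    have : l - w = -m := by rw [← hlm]; abel
    rw [this]
    exact Λ.neg_mem hm

theorem range_stepPsi_eq_ker_stepRho (h : Λ ≤ Λ') :
    LinearMap.range (stepPsi L Λ Λ') = LinearMap.ker (stepRho L Λ Λ' h) := by
  ext y
  obtain ⟨v, rfl⟩ := Submodule.Quotient.mk_surjective _ y
  rw [LinearMap.mem_ker]
  constructor
  · rintro ⟨z, hz⟩
    obtain ⟨⟨w, hw⟩, rfl⟩ := Submodule.Quotient.mk_surjective _ z
    rw [← hz]
    simp only [stepPsi, stepRho, Submodule.liftQ_apply, LinearMap.comp_apply,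
      Submodule.coe_subtype, Submodule.mkQ_apply, Submodule.mapQ_apply, LinearMap.id_apply]
    rw [Submodule.Quotient.mk_eq_zero]
    exact Submodule.mem_sup_right hw
  · intro hy
    simp only [stepRho, Submodule.mapQ_apply, LinearMap.id_apply] at hy
    rw [Submodule.Quotient.mk_eq_zero, Submodule.mem_sup] at hy
    obtain ⟨l, hl, m, hm, hlm⟩ := hy
    refine ⟨Submodule.Quotient.mk ⟨m, hm⟩, ?_⟩
    simp only [stepPsi, Submodule.liftQ_apply, LinearMap.comp_apply, Submodule.coe_subtype,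
      Submodule.mkQ_apply]
    rw [Submodule.Quotient.eq]
    have : m - v = -l := by rw [← hlm]; abel
    rw [this]
    exact Submodule.mem_sup_left (L.neg_mem hl)

/-- Finiteness of `H⁰` transfers along a finite-colength step. -/
theorem fd_h0_step_iff (h : Λ ≤ Λ') [FiniteDimensional k (↥Λ' ⧸ Λ.submoduleOf Λ')] :
    FiniteDimensional k ↥(L ⊓ Λ) ↔ FiniteDimensional k ↥(L ⊓ Λ') := by
  rw [fd_iff_ker_range (stepPhi L Λ Λ')]
  constructor
  · intro hfd
    exact ⟨Module.Finite.equiv (kerPhiEquiv L Λ Λ' h).symm, inferInstance⟩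
  · rintro ⟨h1, _⟩
    exact Module.Finite.equiv (kerPhiEquiv L Λ Λ' h)

/-- Finiteness of `H¹` transfers along a finite-colength step. -/
theorem fd_h1_step_iff (h : Λ ≤ Λ') [FiniteDimensional k (↥Λ' ⧸ Λ.submoduleOf Λ')] :
    FiniteDimensional k (V ⧸ (L ⊔ Λ)) ↔ FiniteDimensional k (V ⧸ (L ⊔ Λ')) := by
  rw [fd_iff_ker_range (stepRho L Λ Λ' h)]
  constructor
  · rintro ⟨_, h2⟩
    rw [LinearMap.range_eq_top.mpr (stepRho_surjective L Λ Λ' h)] at h2
    exact Module.Finite.equiv (LinearEquiv.ofTop ⊤ rfl)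
  · intro hfd
    refine ⟨?_, inferInstance⟩
    rw [← range_stepPsi_eq_ker_stepRho L Λ Λ' h]
    infer_instance

/-- Index additivity: `χ(L, Λ') = χ(L, Λ) + dim (Λ' / Λ)`. -/
theorem index_step (h : Λ ≤ Λ') [FiniteDimensional k (↥Λ' ⧸ Λ.submoduleOf Λ')]
    [FiniteDimensional k ↥(L ⊓ Λ)] [FiniteDimensional k (V ⧸ (L ⊔ Λ))] :
    (finrank k ↥(L ⊓ Λ') : ℤ) - finrank k (V ⧸ (L ⊔ Λ')) =
      (finrank k ↥(L ⊓ Λ) : ℤ) - finrank k (V ⧸ (L ⊔ Λ)) +
        finrank k (↥Λ' ⧸ Λ.submoduleOf Λ') := by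
  have : FiniteDimensional k ↥(L ⊓ Λ') := (fd_h0_step_iff L Λ Λ' h).mp inferInstance
  have : FiniteDimensional k (V ⧸ (L ⊔ Λ')) := (fd_h1_step_iff L Λ Λ' h).mp inferInstance
  have e1 := LinearMap.finrank_range_add_finrank_ker (stepPhi L Λ Λ')
  have e2 := LinearMap.finrank_range_add_finrank_ker (stepPsi L Λ Λ')
  have e3 := LinearMap.finrank_range_add_finrank_ker (stepRho L Λ Λ' h)
  have k1 : finrank k ↥(LinearMap.ker (stepPhi L Λ Λ')) = finrank k ↥(L ⊓ Λ) :=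
    (kerPhiEquiv L Λ Λ' h).finrank_eq
  have k2 : finrank k ↥(LinearMap.ker (stepPsi L Λ Λ')) =
      finrank k ↥(LinearMap.range (stepPhi L Λ Λ')) := by
    rw [range_stepPhi_eq_ker_stepPsi L Λ Λ' h]
  have k3 : finrank k ↥(LinearMap.ker (stepRho L Λ Λ' h)) =
      finrank k ↥(LinearMap.range (stepPsi L Λ Λ')) := by
    rw [range_stepPsi_eq_ker_stepRho L Λ Λ' h]
  have k4 : finrank k ↥(LinearMap.range (stepRho L Λ Λ' h)) = finrank k (V ⧸ (L ⊔ Λ')) := by
    rw [LinearMap.range_eq_top.mpr (stepRho_surjective L Λ Λ' h), finrank_top]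
  omega

end Step

end Fermat.Agent.S20_helper83
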